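import Mathlib

/-!
# The cubic field of discriminant -44

The cubic field `ℚ(β)`, `β³ - 2β² + 2 = 0`, of discriminant `-44`: coordinates, ring of integers,
class number one and units modulo squares.  Used for the 2-descent on `X₁(11)`.
-/

noncomputable section

namespace Fermat.Agent.ExponentEleven

open Polynomial Matrix NumberField Module

/-- The polynomial `X³ - 2X² + 2`. -/
def cubicPoly : ℚ[X] := X ^ 3 - C 2 * X ^ 2 + C 2

lemma cubicPoly_natDegree : cubicPoly.natDegree = 3 := by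
  unfold cubicPoly; compute_degree!

lemma cubicPoly_monic : cubicPoly.Monic := by
  unfold cubicPoly; monicity!

/-- `X³ - 2X² + 2` has no rational root. -/
lemma cubicPoly_no_root (x : ℚ) : x ^ 3 - 2 * x ^ 2 + 2 ≠ 0 := by
  intro h
  have hn : (x.num : ℚ) / x.den = x := Rat.num_div_den x
  rw [← hn] at h
  have hd : (x.den : ℚ) ≠ 0 := by exact_mod_cast x.den_nz
  field_simp at h
  have h' : x.num ^ 3 - 2 * x.num ^ 2 * x.den + 2 * (x.den : ℤ) ^ 3 = 0 := by
    have : ((x.num ^ 3 - 2 * x.num ^ 2 * x.den + 2 * (x.den : ℤ) ^ 3 : ℤ) : ℚ) = 0 := by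
      push_cast; linarith [h]
    exact_mod_cast this
  -- both numerator and denominator would be even
  have hnum : (2 : ℤ) ∣ x.num := by
    have : (2 : ℤ) ∣ x.num ^ 3 := ⟨x.num ^ 2 * x.den - (x.den : ℤ) ^ 3, by linarith⟩
    exact Int.prime_two.dvd_of_dvd_pow this
  obtain ⟨k, hk⟩ := hnum
  have hden : (2 : ℤ) ∣ (x.den : ℤ) := by
    have : (2 : ℤ) ∣ (x.den : ℤ) ^ 3 := ⟨-2 * k ^ 3 + 2 * k ^ 2 * x.den, by rw [hk] at h'; linarith⟩
    exact Int.prime_two.dvd_of_dvd_pow this
  have hc := x.reduced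
  have h2 : 2 ∣ Nat.gcd x.num.natAbs x.den :=
    Nat.dvd_gcd (Int.natCast_dvd.mp ⟨k, hk⟩) (by exact_mod_cast hden)
  rw [Nat.Coprime.gcd_eq_one hc] at h2
  omega

/-- `X³ - 2X² + 2` is irreducible over `ℚ`. -/
instance fact_irreducible_cubicPoly : Fact (Irreducible cubicPoly) := ⟨by
  rw [cubicPoly_monic.irreducible_iff_roots_eq_zero_of_degree_le_three
    (by rw [cubicPoly_natDegree]; norm_num) (by rw [cubicPoly_natDegree])]
  refine Multiset.eq_zero_of_forall_notMem fun x hx => ?_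
  rw [mem_roots cubicPoly_monic.ne_zero] at hx
  simp [cubicPoly, IsRoot] at hx
  exact cubicPoly_no_root x hx⟩

/-- The cubic field. -/
abbrev CubicK : Type := AdjoinRoot cubicPoly

instance : FiniteDimensional ℚ CubicK :=
  (AdjoinRoot.powerBasis cubicPoly_monic.ne_zero).finite

instance : CharZero CubicK :=
  charZero_of_injective_algebraMap (algebraMap ℚ CubicK).injective

instance : NumberField CubicK where

/-- The root `β`. -/
def β : CubicK := AdjoinRoot.root cubicPoly

lemma β_cube : β ^ 3 = 2 * β ^ 2 - 2 := by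
  have h : aeval β cubicPoly = 0 := (AdjoinRoot.aeval_eq cubicPoly).trans AdjoinRoot.mk_self
  conv at h => lhs; simp only [cubicPoly, map_add, map_sub, map_mul, map_pow, aeval_X, aeval_C,
      map_ofNat]
  linear_combination h

/-- The element with coordinates `a, b, c` in the basis `1, β, β²`. -/
def el (a b c : ℚ) : CubicK :=
  algebraMap ℚ CubicK a + algebraMap ℚ CubicK b * β + algebraMap ℚ CubicK c * β ^ 2

/-- Multiplication in the coordinates `1, β, β²`. -/
lemma el_mul (a b c a' b' c' : ℚ) :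
    el a b c * el a' b' c' =
      el (a * a' - 2 * (b * c' + c * b') - 4 * (c * c'))
        (a * b' + b * a' - 2 * (c * c'))
        (a * c' + b * b' + c * a' + 2 * (b * c' + c * b') + 4 * (c * c')) := by
  simp only [el, map_add, map_sub, map_mul, map_ofNat]
  linear_combination
    (algebraMap ℚ CubicK b * algebraMap ℚ CubicK c' + algebraMap ℚ CubicK c * algebraMap ℚ CubicK b'
      + algebraMap ℚ CubicK c * algebraMap ℚ CubicK c' * (β + 2)) * β_cube

lemma el_add (a b c a' b' c' : ℚ) :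
    el a b c + el a' b' c' = el (a + a') (b + b') (c + c') := by
  simp only [el, map_add]; ring

lemma el_sub (a b c a' b' c' : ℚ) :
    el a b c - el a' b' c' = el (a - a') (b - b') (c - c') := by
  simp only [el, map_sub]; ring

/-- The basis `1, β, β²`. -/
def cubicBasis : Basis (Fin 3) ℚ CubicK :=
  (AdjoinRoot.powerBasis cubicPoly_monic.ne_zero).basis.reindex
    (finCongr (by rw [AdjoinRoot.powerBasis_dim, cubicPoly_natDegree]))

lemma cubicBasis_apply (i : Fin 3) : cubicBasis i = β ^ (i : ℕ) := by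
  simp [cubicBasis, β]

lemma el_eq_sum (a b c : ℚ) : el a b c = ∑ i, ![a, b, c] i • cubicBasis i := by
  simp [el, Fin.sum_univ_three, cubicBasis_apply, Algebra.smul_def]

lemma repr_el (a b c : ℚ) (i : Fin 3) : cubicBasis.repr (el a b c) i = ![a, b, c] i := by
  rw [el_eq_sum, cubicBasis.repr_sum_self]

lemma exists_el (x : CubicK) : ∃ a b c, x = el a b c := by
  refine ⟨cubicBasis.repr x 0, cubicBasis.repr x 1, cubicBasis.repr x 2, ?_⟩
  conv_lhs => rw [← cubicBasis.sum_repr x]
  simp [el, Fin.sum_univ_three, cubicBasis_apply, Algebra.smul_def]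

lemma el_inj {a b c a' b' c' : ℚ} (h : el a b c = el a' b' c') : a = a' ∧ b = b' ∧ c = c' := by
  have h0 := repr_el a b c 0
  have h1 := repr_el a b c 1
  have h2 := repr_el a b c 2
  rw [h, repr_el] at h0 h1 h2
  simp at h0 h1 h2
  exact ⟨h0.symm, h1.symm, h2.symm⟩

/-- The matrix of multiplication by `el a b c`. -/
def elMatrix (a b c : ℚ) : Matrix (Fin 3) (Fin 3) ℚ :=
  !![a, -2 * c, -2 * (b + 2 * c); b, a, -2 * c; c, b + 2 * c, a + 2 * (b + 2 * c)]

lemma leftMulMatrix_el (a b c : ℚ) :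
    Algebra.leftMulMatrix cubicBasis (el a b c) = elMatrix a b c := by
  ext i j
  rw [Algebra.leftMulMatrix_eq_repr_mul]
  have h0 : cubicBasis 0 = el 1 0 0 := by simp [cubicBasis_apply, el]
  have h1 : cubicBasis 1 = el 0 1 0 := by simp [cubicBasis_apply, el]
  have h2 : cubicBasis 2 = el 0 0 1 := by simp [cubicBasis_apply, el]
  fin_cases j <;>
    simp only [h0, h1, h2, Fin.zero_eta, Fin.mk_one, Fin.reduceFinMk, el_mul, repr_el] <;>
    fin_cases i <;> simp [elMatrix] <;> ring

/-- The norm form. -/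
def normForm {R : Type*} [CommRing R] (a b c : R) : R :=
  a * (a * (a + 2 * (b + 2 * c)) + 2 * c * (b + 2 * c))
    + 2 * c * (b * (a + 2 * (b + 2 * c)) + 2 * c * c)
    - 2 * (b + 2 * c) * (b * (b + 2 * c) - a * c)

lemma norm_el (a b c : ℚ) : Algebra.norm ℚ (el a b c) = normForm a b c := by
  rw [Algebra.norm_eq_matrix_det cubicBasis, leftMulMatrix_el]
  simp [elMatrix, Matrix.det_fin_three, normForm]
  ring

lemma trace_el (a b c : ℚ) : Algebra.trace ℚ CubicK (el a b c) = 3 * a + 2 * b + 4 * c := by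
  rw [Algebra.trace_eq_matrix_trace cubicBasis, leftMulMatrix_el]
  simp [elMatrix, Matrix.trace_fin_three]
  ring

lemma exists_int_of_isIntegral {q : ℚ} (h : IsIntegral ℤ q) : ∃ n : ℤ, q = n := by
  obtain ⟨n, hn⟩ := IsIntegrallyClosed.isIntegral_iff.1 h
  exact ⟨n, by simpa using hn.symm⟩

lemma exists_int_trace {x : CubicK} (h : IsIntegral ℤ x) :
    ∃ n : ℤ, Algebra.trace ℚ CubicK x = n :=
  exists_int_of_isIntegral (Algebra.isIntegral_trace h)

lemma exists_int_norm {x : CubicK} (h : IsIntegral ℤ x) :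
    ∃ n : ℤ, Algebra.norm ℚ x = n :=
  exists_int_of_isIntegral (Algebra.isIntegral_norm ℚ h)

lemma isIntegral_β : IsIntegral ℤ β := by
  refine ⟨X ^ 3 - C 2 * X ^ 2 + C 2, by monicity!, ?_⟩
  simp [map_ofNat]
  linear_combination β_cube

/-- A rational number `q` with `44 q²` integral is half-integral. -/
lemma two_mul_int_of_sq {q : ℚ} {n : ℤ} (h : -44 * q ^ 2 = n) : ∃ k : ℤ, 2 * q = k := by
  have hd : (q.den : ℚ) ≠ 0 := by exact_mod_cast q.den_nz
  have hq : (q.num : ℚ) = q * q.den := (Rat.mul_den_eq_num q).symm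
  have h1 : (-44 : ℤ) * q.num ^ 2 = n * (q.den : ℤ) ^ 2 := by
    have : (((-44 : ℤ) * q.num ^ 2 : ℤ) : ℚ) = ((n * (q.den : ℤ) ^ 2 : ℤ) : ℚ) := by
      push_cast
      rw [hq, ← h]; ring
    exact_mod_cast this
  have h2 : q.den ^ 2 ∣ 44 := by
    have h3 : q.den ^ 2 ∣ 44 * q.num.natAbs ^ 2 := by
      refine ⟨n.natAbs, ?_⟩
      have := congrArg Int.natAbs h1
      simpa [Int.natAbs_mul, Int.natAbs_pow, mul_comm] using this
    exact (Nat.Coprime.pow 2 2 q.reduced.symm).dvd_of_dvd_mul_right h3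
  have h4 : q.den ∣ 2 := by
    have h5 : q.den ≤ 44 := Nat.le_of_dvd (by norm_num) ((dvd_pow_self _ two_ne_zero).trans h2)
    have h6 : q.den ^ 2 ≤ 44 := Nat.le_of_dvd (by norm_num) h2
    have h7 : q.den ≤ 6 := by nlinarith
    have h8 := q.den_pos
    interval_cases hh : q.den <;> first | (norm_num at h2; done) | norm_num
  obtain ⟨m, hm⟩ := h4
  refine ⟨q.num * m, ?_⟩
  have : ((2 : ℕ) : ℚ) = ((q.den * m : ℕ) : ℚ) := by rw [← hm]
  push_cast at this
  push_cast
  rw [hq, this]; ring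

lemma el_half {a b c : ℚ} (h : IsIntegral ℤ (el a b c)) :
    (∃ k : ℤ, 2 * a = k) ∧ (∃ k : ℤ, 2 * b = k) ∧ (∃ k : ℤ, 2 * c = k) := by
  obtain ⟨t0, ht0⟩ := exists_int_trace h
  obtain ⟨t1, ht1⟩ := exists_int_trace (h.mul isIntegral_β)
  obtain ⟨t2, ht2⟩ := exists_int_trace (h.mul (isIntegral_β.pow 2))
  obtain ⟨S, hS⟩ := exists_int_trace (h.mul h)
  have hb1 : el a b c * β = el a b c * el 0 1 0 := by simp [el]
  have hb2 : el a b c * β ^ 2 = el a b c * el 0 0 1 := by simp [el]
  rw [trace_el] at ht0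
  rw [hb1, el_mul, trace_el] at ht1
  rw [hb2, el_mul, trace_el] at ht2
  rw [el_mul, trace_el] at hS
  refine ⟨two_mul_int_of_sq (n := -4 * S + 4 * t1 * t2 - 4 * t2 ^ 2) (q := a) ?_,
    two_mul_int_of_sq (n := -16 * S + 8 * t0 * t2 - 3 * t2 ^ 2) (q := b) ?_,
    two_mul_int_of_sq (n := 8 * S + 4 * t0 * t1 - 3 * t1 ^ 2 - 4 * t0 ^ 2) (q := c) ?_⟩
  all_goals push_cast; simp only [← ht0, ← ht1, ← ht2, ← hS]; ring

/-- An algebraic integer of the cubic field has integral coordinates. -/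
lemma exists_int_coords {x : CubicK} (h : IsIntegral ℤ x) :
    ∃ a b c : ℤ, x = el a b c := by
  obtain ⟨a, b, c, rfl⟩ := exists_el x
  obtain ⟨⟨A, hA⟩, ⟨B, hB⟩, ⟨D, hD⟩⟩ := el_half h
  obtain ⟨N, hN⟩ := exists_int_norm h
  rw [norm_el] at hN
  have hN' : normForm A B D = 8 * N := by
    have : ((normForm A B D : ℤ) : ℚ) = ((8 * N : ℤ) : ℚ) := by
      push_cast [normForm]
      rw [← hA, ← hB, ← hD, ← hN]
      simp only [normForm]; ring
    exact_mod_cast this
  have key : ∀ u v w : ZMod 8, normForm u v w = 0 → 4 * u = 0 ∧ 4 * v = 0 ∧ 4 * w = 0 := by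
    unfold normForm; decide +kernel
  have h8 : normForm (A : ZMod 8) (B : ZMod 8) (D : ZMod 8) = 0 := by
    have := congrArg (Int.cast : ℤ → ZMod 8) hN'
    simp only [normForm] at this ⊢
    push_cast at this
    rw [this, show (8 : ZMod 8) = 0 from by decide, zero_mul]
  obtain ⟨hA', hB', hD'⟩ := key _ _ _ h8
  have even_of : ∀ z : ℤ, 4 * (z : ZMod 8) = 0 → ∃ k, z = 2 * k := by
    intro z hz
    have : ((4 * z : ℤ) : ZMod 8) = 0 := by push_cast; exact hz
    rw [ZMod.intCast_zmod_eq_zero_iff_dvd] at this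
    obtain ⟨k, hk⟩ := this
    exact ⟨k, by push_cast at hk; omega⟩
  obtain ⟨a', rfl⟩ := even_of A hA'
  obtain ⟨b', rfl⟩ := even_of B hB'
  obtain ⟨c', rfl⟩ := even_of D hD'
  refine ⟨a', b', c', ?_⟩
  push_cast at hA hB hD
  rw [show a = a' by linarith, show b = b' by linarith, show c = c' by linarith]

lemma isIntegral_el (a b c : ℤ) : IsIntegral ℤ (el a b c) := by
  have : el a b c = (a : CubicK) + (b : CubicK) * β + (c : CubicK) * β ^ 2 := by simp [el]
  rw [this]
  exact ((map_intCast (algebraMap ℤ CubicK) a ▸ isIntegral_algebraMap).add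
    ((map_intCast (algebraMap ℤ CubicK) b ▸ isIntegral_algebraMap).mul isIntegral_β)).add
    ((map_intCast (algebraMap ℤ CubicK) c ▸ isIntegral_algebraMap).mul (isIntegral_β.pow 2))

/-- The integer with coordinates `a, b, c`. -/
def elInt (a b c : ℤ) : 𝓞 CubicK := ⟨el a b c, isIntegral_el a b c⟩

lemma coe_elInt (a b c : ℤ) : (elInt a b c : CubicK) = el a b c := rfl

lemma exists_elInt (x : 𝓞 CubicK) : ∃ a b c, x = elInt a b c := by
  obtain ⟨a, b, c, h⟩ := exists_int_coords x.2
  exact ⟨a, b, c, RingOfIntegers.ext h⟩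

lemma elInt_inj {a b c a' b' c' : ℤ} (h : elInt a b c = elInt a' b' c') :
    a = a' ∧ b = b' ∧ c = c' := by
  have := el_inj (congrArg (algebraMap (𝓞 CubicK) CubicK) h)
  exact_mod_cast this

/-- Multiplication of algebraic integers in coordinates. -/
lemma elInt_mul (a b c a' b' c' : ℤ) :
    elInt a b c * elInt a' b' c' =
      elInt (a * a' - 2 * (b * c' + c * b') - 4 * (c * c'))
        (a * b' + b * a' - 2 * (c * c'))
        (a * c' + b * b' + c * a' + 2 * (b * c' + c * b') + 4 * (c * c')) := by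
  apply RingOfIntegers.ext
  simp only [map_mul, coe_elInt, el_mul]
  push_cast; rfl

lemma elInt_sub (a b c a' b' c' : ℤ) :
    elInt a b c - elInt a' b' c' = elInt (a - a') (b - b') (c - c') := by
  apply RingOfIntegers.ext
  simp only [map_sub, coe_elInt, el_sub]
  push_cast; rfl

lemma elInt_add (a b c a' b' c' : ℤ) :
    elInt a b c + elInt a' b' c' = elInt (a + a') (b + b') (c + c') := by
  apply RingOfIntegers.ext
  simp only [map_add, coe_elInt, el_add]
  push_cast; rfl

lemma elInt_intCast (n : ℤ) : (n : 𝓞 CubicK) = elInt n 0 0 := by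
  apply RingOfIntegers.ext
  simp [coe_elInt, el]

lemma norm_elInt (a b c : ℤ) :
    Algebra.norm ℚ ((elInt a b c : 𝓞 CubicK) : CubicK) = ((normForm a b c : ℤ) : ℚ) := by
  rw [coe_elInt, norm_el]
  simp [normForm]

end Fermat.Agent.ExponentEleven
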