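import Fermat.Agent.ExponentEleven.CubicField

/-!
# Class number and units of the cubic field

Class number one and units modulo squares for the cubic field of discriminant `-44`.
-/

noncomputable section

namespace Fermat.Agent.ExponentEleven

open Polynomial Matrix NumberField Module NumberField.InfinitePlace

/-- The integral basis `1, β, β²`. -/
def cubicBasisInt : Basis (Fin 3) ℤ (𝓞 CubicK) :=
  Basis.mk (v := ![elInt 1 0 0, elInt 0 1 0, elInt 0 0 1])
    (by
      rw [Fintype.linearIndependent_iff]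
      intro g hg
      have : elInt (g 0) (g 1) (g 2) = elInt 0 0 0 := by
        simp [Fin.sum_univ_three, zsmul_eq_mul, elInt_intCast, elInt_mul, elInt_add] at hg
        rw [hg]
        exact RingOfIntegers.ext (by simp [coe_elInt, el])
      obtain ⟨h0, h1, h2⟩ := elInt_inj this
      intro i; fin_cases i <;> assumption)
    (by
      rintro x -
      obtain ⟨a, b, c, rfl⟩ := exists_elInt x
      rw [Submodule.mem_span_range_iff_exists_fun]
      refine ⟨![a, b, c], ?_⟩
      simp [Fin.sum_univ_three, zsmul_eq_mul, elInt_intCast, elInt_mul, elInt_add])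

lemma discr_cubicK : NumberField.discr CubicK = -44 := by
  rw [← NumberField.discr_eq_discr CubicK cubicBasisInt]
  have h := Algebra.discr_localizationLocalization (R := ℤ) (Rₘ := ℚ) (M := nonZeroDivisors ℤ)
    (Sₘ := CubicK) cubicBasisInt
  have hb : ⇑(cubicBasisInt.localizationLocalization ℚ (nonZeroDivisors ℤ) CubicK) =
      ![el 1 0 0, el 0 1 0, el 0 0 1] := by
    funext i
    rw [Basis.localizationLocalization_apply, cubicBasisInt, Basis.mk_apply]
    fin_cases i <;> simp [coe_elInt]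
  rw [hb] at h
  have : Algebra.discr ℚ ![el 1 0 0, el 0 1 0, el 0 0 1] = -44 := by
    rw [Algebra.discr_def, Matrix.det_fin_three]
    simp [Algebra.traceMatrix_apply, Algebra.traceForm_apply, el_mul, trace_el]
    norm_num
  rw [this] at h
  have h' : ((Algebra.discr ℤ cubicBasisInt : ℤ) : ℚ) = ((-44 : ℤ) : ℚ) := by
    rw [← eq_intCast (algebraMap ℤ ℚ), ← h]; norm_num
  exact_mod_cast h'

lemma finrank_cubicK : finrank ℚ CubicK = 3 := by
  rw [finrank_eq_card_basis cubicBasis, Fintype.card_fin]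

lemma cubic_real_root_unique {x y : ℝ} (hx : x ^ 3 - 2 * x ^ 2 + 2 = 0)
    (hy : y ^ 3 - 2 * y ^ 2 + 2 = 0) : x = y := by
  have hx0 : x < 0 := by
    by_contra h; push Not at h
    nlinarith [mul_nonneg h (sq_nonneg (x - 4 / 3)), sq_nonneg (x - 4 / 3)]
  have hy0 : y < 0 := by
    by_contra h; push Not at h
    nlinarith [mul_nonneg h (sq_nonneg (y - 4 / 3)), sq_nonneg (y - 4 / 3)]
  by_contra hne
  have h : (x - y) * (x ^ 2 + x * y + y ^ 2 - 2 * x - 2 * y) = 0 := by linear_combination hx - hy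
  rcases mul_eq_zero.mp h with h | h
  · exact hne (sub_eq_zero.mp h)
  · nlinarith [mul_pos_of_neg_of_neg hx0 hy0]

lemma embedding_ext {φ ψ : CubicK →+* ℂ} (h : φ β = ψ β) : φ = ψ := by
  refine RingHom.ext fun x => ?_
  obtain ⟨a, b, c, rfl⟩ := exists_el x
  simp [el, h, eq_ratCast]

lemma nrRealPlaces_le_one : nrRealPlaces CubicK ≤ 1 := by
  classical
  rw [← card_real_embeddings, Fintype.card_le_one_iff]
  rintro ⟨φ, hφ⟩ ⟨ψ, hψ⟩
  apply Subtype.ext
  apply embedding_ext
  rw [← ComplexEmbedding.IsReal.coe_embedding_apply hφ,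
    ← ComplexEmbedding.IsReal.coe_embedding_apply hψ]
  congr 1
  refine cubic_real_root_unique ?_ ?_
  · have := congrArg hφ.embedding β_cube; simp [map_ofNat] at this; linarith
  · have := congrArg hψ.embedding β_cube; simp [map_ofNat] at this; linarith

lemma places_cubicK : nrRealPlaces CubicK = 1 ∧ nrComplexPlaces CubicK = 1 := by
  have h := card_add_two_mul_card_eq_rank CubicK
  rw [finrank_cubicK] at h
  have := nrRealPlaces_le_one
  omega

/-- The cubic field has class number one (Minkowski bound). -/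
instance isPrincipalIdealRing_cubicK : IsPrincipalIdealRing (𝓞 CubicK) := by
  apply RingOfIntegers.isPrincipalIdealRing_of_abs_discr_lt
  rw [discr_cubicK, places_cubicK.2, finrank_cubicK]
  norm_num [Nat.factorial]
  nlinarith [Real.pi_gt_three]

lemma rank_cubicK : Units.rank CubicK = 1 := by
  rw [Units.rank, card_eq_nrRealPlaces_add_nrComplexPlaces, places_cubicK.1, places_cubicK.2]

lemma torsion_eq_one_or_neg_one (ζ : (𝓞 CubicK)ˣ) (h : ζ ∈ Units.torsion CubicK) :
    ζ = 1 ∨ ζ = -1 := by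
  have hodd : Odd (finrank ℚ CubicK) := by rw [finrank_cubicK]; decide
  exact Units.torsion_eq_one_or_neg_one_of_odd_finrank hodd ⟨ζ, h⟩

/-- The unit `1 - β`. -/
def epsUnit : (𝓞 CubicK)ˣ where
  val := elInt 1 (-1) 0
  inv := elInt (-1) (-1) 1
  val_inv := by
    rw [elInt_mul]
    norm_num
    exact RingOfIntegers.ext (by simp [coe_elInt, el])
  inv_val := by
    rw [elInt_mul]
    norm_num
    exact RingOfIntegers.ext (by simp [coe_elInt, el])

lemma epsUnit_not_sq (w : (𝓞 CubicK)ˣ) (s : ℤˣ) :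
    (epsUnit : 𝓞 CubicK) ≠ ((s : ℤ) : 𝓞 CubicK) * ((w * w : (𝓞 CubicK)ˣ) : 𝓞 CubicK) := by
  intro h
  obtain ⟨r, t, u, hw⟩ := exists_elInt (w : 𝓞 CubicK)
  rw [Units.val_mul, hw, elInt_intCast, elInt_mul, elInt_mul] at h
  obtain ⟨-, h2, -⟩ := elInt_inj (show elInt 1 (-1) 0 = _ from h)
  rcases Int.units_eq_one_or s with rfl | rfl
  · have : (2 : ℤ) ∣ -1 := ⟨r * t - u * u, by simp at h2; linarith⟩
    omega
  · have : (2 : ℤ) ∣ -1 := ⟨-(r * t - u * u), by simp at h2; linarith⟩
    omega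

/-- Units modulo squares are generated by `-1` and `1 - β`. -/
lemma units_mod_squares (u : (𝓞 CubicK)ˣ) :
    ∃ (s : ℤˣ) (i : Bool) (w : 𝓞 CubicK),
      (u : 𝓞 CubicK) = ((s : ℤ) : 𝓞 CubicK) * (if i then elInt 1 (-1) 0 else 1) * w ^ 2 := by
  let j : Fin (Units.rank CubicK) := ⟨0, by rw [rank_cubicK]; norm_num⟩
  have hgen : ∀ x : (𝓞 CubicK)ˣ, ∃ (s : ℤˣ) (k : ℤ),
      (x : 𝓞 CubicK) = ((s : ℤ) : 𝓞 CubicK) * ((Units.fundSystem CubicK j ^ k : (𝓞 CubicK)ˣ) :
        𝓞 CubicK) := by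
    intro x
    obtain ⟨⟨⟨ζ, hζ⟩, e⟩, hx, -⟩ := Units.exist_unique_eq_mul_prod CubicK x
    rw [Finset.prod_eq_single j (fun i _ hi => absurd (Fin.ext (show i.val = j.val by
        have := i.isLt; have := rank_cubicK; simp only [j]; omega)) hi) (by simp)] at hx
    rcases torsion_eq_one_or_neg_one ζ hζ with rfl | rfl
    · exact ⟨1, e j, by rw [hx]; simp⟩
    · exact ⟨-1, e j, by rw [hx]; simp⟩
  obtain ⟨sε, kε, hε⟩ := hgen epsUnit
  obtain ⟨s, k, hu⟩ := hgen u
  set g := Units.fundSystem CubicK j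
  have hodd : Odd kε := by
    by_contra hne
    obtain ⟨m, hm⟩ := Int.not_odd_iff_even.mp hne
    exact epsUnit_not_sq (g ^ m) sε (by rw [hε, hm, _root_.zpow_add])
  obtain ⟨m, hm⟩ := hodd
  rcases Int.even_or_odd' k with ⟨l, hl | hl⟩
  · refine ⟨s, false, ((g ^ l : (𝓞 CubicK)ˣ) : 𝓞 CubicK), ?_⟩
    rw [hu, hl, two_mul, _root_.zpow_add, Units.val_mul]
    simp [pow_two]
  · refine ⟨s * sε, true, ((g ^ (l - m) : (𝓞 CubicK)ˣ) : 𝓞 CubicK), ?_⟩
    have hg : g ^ k = g ^ kε * g ^ (l - m) * g ^ (l - m) := by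
      rw [← _root_.zpow_add, ← _root_.zpow_add, hl, hm]; congr 1; ring
    rw [hu, hg, Units.val_mul, Units.val_mul]
    simp only [if_true]
    rw [show elInt 1 (-1) 0 = ((epsUnit : (𝓞 CubicK)ˣ) : 𝓞 CubicK) from rfl, hε]
    rcases Int.units_eq_one_or sε with rfl | rfl <;> simp <;> ring

end Fermat.Agent.ExponentEleven
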