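import Mathlib.Tactic.NormNum.Prime
import Fermat.Agent.SmallExponents.Tate

/-!
# Tate normal forms and `X₁(11)`

Tate normal forms `y² + (1-c)xy - by = x³ - bx²` and the parametrisation of points of order 11
by the curve `v² + v = u³ - u²`, together with its behaviour under doubling.
-/

namespace Fermat.Agent.ExponentEleven

open WeierstrassCurve

variable {K : Type*} [Field K]

/-- The Tate normal form. -/
def tateCurve (b c : K) : WeierstrassCurve K := ⟨1 - c, -b, -b, 0, 0⟩

lemma eq_tateCurve_of_isTate {W : WeierstrassCurve K} {b c : K}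
    (h : SmallExponents.IsTate W b c) : W = tateCurve b c := by
  ext <;> simp [tateCurve, h.a₁_eq, h.a₂_eq, h.a₃_eq, h.a₄_eq, h.a₆_eq]

/-- `W` has Tate normal form `(b, c)` with respect to its point `(x, y)`. -/
def HasTate (W : WeierstrassCurve K) (x y b c : K) : Prop :=
  ∃ C : VariableChange K, C • W = tateCurve b c ∧ C.r = x ∧ C.t = y

/-- The Tate parameters of a point are unique. -/
lemma hasTate_unique {W : WeierstrassCurve K} {x y b c b' c' : K} (hb : b ≠ 0)
    (h : HasTate W x y b c) (h' : HasTate W x y b' c') : b = b' ∧ c = c' := by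
  obtain ⟨C, hC, rfl, rfl⟩ := h
  obtain ⟨C', hC', hr, ht⟩ := h'
  obtain ⟨D, hD⟩ : ∃ D, D = C' * C⁻¹ := ⟨_, rfl⟩
  have hDC : D * C = C' := by rw [hD, inv_mul_cancel_right]
  have hE : D • tateCurve b c = tateCurve b' c' := by rw [← hC, ← mul_smul, hDC, hC']
  have hu : (C.u : K) ≠ 0 := C.u.ne_zero
  have hDr : D.r = 0 := by
    have := congrArg VariableChange.r hDC
    simp only [VariableChange.mul_def] at this
    rw [hr] at this
    simpa [hu] using this
  have hDt : D.t = 0 := by
    have := congrArg VariableChange.t hDC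
    simp only [VariableChange.mul_def] at this
    rw [ht, hDr] at this
    simpa [hu] using this
  have hDu : (D.u : K) ≠ 0 := D.u.ne_zero
  have e4 := congrArg WeierstrassCurve.a₄ hE
  have e1 := congrArg WeierstrassCurve.a₁ hE
  have e2 := congrArg WeierstrassCurve.a₂ hE
  have e3 := congrArg WeierstrassCurve.a₃ hE
  simp only [variableChange_def, tateCurve, hDr, hDt, Units.val_inv_eq_inv_val] at e1 e2 e3 e4
  field_simp at e1 e2 e3 e4
  ring_nf at e4
  have hs : D.s = 0 := by
    rcases mul_eq_zero.mp (show D.s * b = 0 by linear_combination e4) with h | h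
    · exact h
    · exact absurd h hb
  rw [hs] at e1 e2
  have hb' : b' ≠ 0 := by
    intro h; rw [h] at e2; exact hb (by linear_combination -e2)
  have hu1 : (D.u : K) = 1 := by
    refine mul_left_cancel₀ (mul_ne_zero hb' (pow_ne_zero 2 hDu)) ?_
    linear_combination e3 - e2
  rw [hu1] at e1 e2
  constructor
  · linear_combination -e2
  · linear_combination -e1

lemma HasTate.map {W : WeierstrassCurve K} {x y b c : K} (h : HasTate W x y b c)
    {L : Type*} [Field L] (σ : K →+* L) : HasTate (W.map σ) (σ x) (σ y) (σ b) (σ c) := by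
  obtain ⟨C, hC, rfl, rfl⟩ := h
  refine ⟨C.map σ, ?_, rfl, rfl⟩
  rw [WeierstrassCurve.map_variableChange, hC]
  simp [tateCurve, WeierstrassCurve.map]

lemma HasTate.trans {W : WeierstrassCurve K} {C : VariableChange K} {b c x y b' c' : K}
    (hC : C • W = tateCurve b c) (h : HasTate (tateCurve b c) x y b' c') :
    HasTate W (SmallExponents.vcX C x) (SmallExponents.vcY C x y) b' c' := by
  obtain ⟨D, hD, rfl, rfl⟩ := h
  refine ⟨D * C, by rw [mul_smul, hC, hD], ?_, ?_⟩
  · simp only [VariableChange.mul_def, SmallExponents.vcX]; ring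
  · simp only [VariableChange.mul_def, SmallExponents.vcY]; ring

/-- The parameter `u` on `X₁(11)`. -/
def paramU (b c : K) : K := (b - c) ^ 2 / (c * (c ^ 2 - b + c))

/-- The parameter `v` on `X₁(11)`. -/
def paramV (b c : K) : K := (b - c) / c

lemma paramV_ne {b c : K} (hb : b ≠ 0) (hc : c ≠ 0) (hbc : b ≠ c) :
    paramV b c ≠ 0 ∧ paramV b c ≠ -1 := by
  refine ⟨div_ne_zero (sub_ne_zero.mpr hbc) hc, fun h => ?_⟩
  rw [paramV, div_eq_iff hc] at h
  exact hb (by linear_combination h)

lemma paramU_ne {b c : K} (hc : c ≠ 0) (hbc : b ≠ c) (hs : c ^ 2 - b + c ≠ 0) : paramU b c ≠ 0 :=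
  div_ne_zero (pow_ne_zero 2 (sub_ne_zero.mpr hbc)) (mul_ne_zero hc hs)

lemma bc_of_uv {b c : K} (hc : c ≠ 0) (hbc : b ≠ c) (hs : c ^ 2 - b + c ≠ 0) :
    b = (1 + paramV b c) * (paramU b c + paramV b c) * paramV b c / paramU b c ∧
      c = (paramU b c + paramV b c) * paramV b c / paramU b c := by
  have hd : b - c ≠ 0 := sub_ne_zero.mpr hbc
  refine ⟨?_, ?_⟩ <;>
  · simp only [paramU, paramV]
    field_simp
    ring

/-- The relation cutting out points of order 11. -/
def relEleven (r s : K) : K := r ^ 2 - r * s ^ 3 + 3 * r * s ^ 2 - 4 * r * s + s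

lemma curve_of_relEleven {b c : K} (hc : c ≠ 0) (hbc : b ≠ c) (hs : c ^ 2 - b + c ≠ 0)
    (h : relEleven (b / c) (c ^ 2 / (b - c)) = 0) :
    paramV b c ^ 2 + paramV b c = paramU b c ^ 3 - paramU b c ^ 2 := by
  have hd : b - c ≠ 0 := sub_ne_zero.mpr hbc
  have key : ∀ r s : K, s - 1 ≠ 0 → relEleven r s = 0 →
      (r - 1) ^ 2 + (r - 1) = ((r - 1) / (s - 1)) ^ 3 - ((r - 1) / (s - 1)) ^ 2 := by
    intro r s hs' hG
    simp only [relEleven] at hG
    field_simp
    linear_combination (-(r - 1)) * hG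
  have h1 : c ^ 2 / (b - c) - 1 = (c ^ 2 - b + c) / (b - c) := by field_simp; ring
  have := key _ _ (by rw [h1]; exact div_ne_zero hs hd) h
  rw [h1] at this
  convert this using 3 <;> simp only [paramU, paramV] <;> field_simp

/-- Tate parameters of the double of the origin, as functions of `(u, v)`. -/
def bDbl (u v : K) : K := -u * v ^ 2 * (1 + v) / (u + v) ^ 4

/-- Tate parameters of the double of the origin, as functions of `(u, v)`. -/
def cDbl (u v : K) : K := u * (u - v - 1) / (u + v) ^ 2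

lemma hasTate_dbl {b c : K} (hb : b ≠ 0) (hc : c ≠ 0) (hbc : b ≠ c) (hs : c ^ 2 - b + c ≠ 0) :
    HasTate (tateCurve b c) b (b * c) (bDbl (paramU b c) (paramV b c))
      (cDbl (paramU b c) (paramV b c)) := by
  obtain ⟨hv, hv'⟩ := paramV_ne hb hc hbc
  have hu := paramU_ne hc hbc hs
  obtain ⟨eb, ec⟩ := bc_of_uv hc hbc hs
  generalize paramU b c = u at *
  generalize paramV b c = v at *
  subst eb ec
  have hw : u + v ≠ 0 := by intro h; simp [h] at hc
  have hv1 : 1 + v ≠ 0 := fun h => hv' (by linear_combination h)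
  have hB : ((1 + v) * (u + v) * v / u) * ((u + v) * v / u) / (v ^ 2 * (1 + v) / u) ≠ 0 := by
    simp [hu, hv, hw, hv1]
  refine ⟨⟨Units.mk0 _ hB, (1 + v) * (u + v) * v / u, v + (u + v) * v / u,
    (1 + v) * (u + v) * v / u * ((u + v) * v / u)⟩, ?_, rfl, rfl⟩
  ext <;>
  · simp only [variableChange_def, tateCurve, Units.val_inv_eq_inv_val, Units.val_mk0, bDbl, cDbl]
    field_simp
    ring

/-- The translation of `X₁(11)` by the point `(1, 0)`, first coordinate. -/
def transU (u v : K) : K := (v ^ 2 - u * (u - 1) ^ 2) / (u - 1) ^ 2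

/-- The translation of `X₁(11)` by the point `(1, 0)`, second coordinate. -/
def transV (u v : K) : K := -1 - v / (u - 1) * (transU u v - 1)

/-- The point of `X₁(11)` attached to the doubled parameters is the translate by `τ`. -/
lemma uv_dbl {u v : K} (hcurve : v ^ 2 + v = u ^ 3 - u ^ 2) (hv : v ≠ 0) (hv' : v ≠ -1)
    (hw : u + v ≠ 0) (hb : bDbl u v ≠ cDbl u v) (hc : cDbl u v ≠ 0) :
    u ≠ 1 ∧ paramU (bDbl u v) (cDbl u v) = transU u v ∧
      paramV (bDbl u v) (cDbl u v) = transV u v := by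
  have hu1 : u ≠ 1 := by
    rintro rfl
    rcases mul_eq_zero.mp (show v * (v + 1) = 0 by linear_combination hcurve) with h | h
    · exact hv h
    · exact hv' (by linear_combination h)
  have hd : u - 1 ≠ 0 := sub_ne_zero.mpr hu1
  have i1 : bDbl u v = (1 + transV u v) * cDbl u v := by
    simp only [bDbl, cDbl, transU, transV]
    field_simp
    linear_combination (-(u*v^4) - u^2*v^3 + u^3*v^2 - 2*u^2*v^2 + u*v^2 + u^4*v - u^3*v
      - u^2*v + u*v) * hcurve
  have i2 : cDbl u v * transU u v = (transU u v + transV u v) * transV u v := by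
    simp only [cDbl, transU, transV]
    field_simp
    linear_combination (-(v^6) - u*v^5 + u^3*v^4 - 3*u*v^4 + 2*v^4 + u^4*v^3 - 2*u^2*v^3 + v^3
      - u^5*v^2 + 2*u^4*v^2 + u^3*v^2 - 5*u^2*v^2 + 4*u*v^2 - v^2 - u^6*v + 2*u^5*v + u^4*v
      - 4*u^3*v + u^2*v + 2*u*v - v + 2*u^6 - 10*u^5 + 20*u^4 - 20*u^3 + 10*u^2 - 2*u) * hcurve
  have hV : transV u v ≠ 0 := by
    intro h; rw [h] at i1; exact hb (by linear_combination i1)
  have hX : transU u v ≠ 0 := by
    intro h; rw [h] at i2
    exact hV (pow_eq_zero_iff two_ne_zero |>.mp (by linear_combination -i2))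
  refine ⟨hu1, ?_, ?_⟩
  · simp only [paramU]
    rw [i1]
    generalize cDbl u v = C2 at hc i2
    generalize transU u v = X at hX i2
    generalize transV u v = V at hV i2
    have h1 : C2 - V = V ^ 2 / X := by field_simp; linear_combination i2
    have h2 : C2 ^ 2 - (1 + V) * C2 + C2 = C2 * (V ^ 2 / X) := by rw [← h1]; ring
    rw [h2]
    field_simp
    ring
  · simp only [paramV]
    rw [i1]
    field_simp
    ring

variable [DecidableEq K]

/-- A change of variables moving a point to the origin of a Tate normal form gives its Tate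
parameters. -/
lemma hasTate_of_vcHom {W : WeierstrassCurve K} {C : VariableChange K} {b c x y : K}
    {P : (C • W).toAffine.Point} (hT : SmallExponents.IsTate (C • W) b c)
    (hP : SmallExponents.HasCoords P 0 0) {h : W.toAffine.Nonsingular x y}
    (hQ : SmallExponents.vcHom W C P = .some x y h) : HasTate W x y b c := by
  obtain ⟨h0, rfl⟩ := hP
  rw [SmallExponents.vcHom_some, Affine.Point.some.injEq] at hQ
  exact ⟨C, eq_tateCurve_of_isTate hT, by simpa [SmallExponents.vcX] using hQ.1,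
    by simpa [SmallExponents.vcY] using hQ.2⟩

/-- For a point of order 11 in Tate normal form the parameters are nondegenerate and satisfy the
equation of `X₁(11)`: the x-coordinates of `5P` and `6P` agree. -/
lemma tate_eleven {W : WeierstrassCurve K} {b c : K} (hT : SmallExponents.IsTate W b c)
    (hb : b ≠ 0) {P : W.toAffine.Point} (hP : SmallExponents.HasCoords P 0 0)
    (h : SmallExponents.PrimeOrder P 11) :
    c ≠ 0 ∧ b ≠ c ∧ c ^ 2 - b + c ≠ 0 ∧ relEleven (b / c) (c ^ 2 / (b - c)) = 0 := by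
  have hc : c ≠ 0 := SmallExponents.tate_c_ne_zero hT hb hP h (by norm_num)
  have ne : ∀ i j : ℕ, (¬ 11 ∣ i ∧ ¬ 11 ∣ j ∧ ¬ (11 : ℤ) ∣ (i : ℤ) - j ∧ ¬ 11 ∣ i + j) →
      SmallExponents.xCoord (i • P) ≠ SmallExponents.xCoord (j • P) := fun i j hh =>
    h.xCoord_ne hh.1 hh.2.1 hh.2.2.1 hh.2.2.2
  have x2 := (SmallExponents.tate_two hT hb hP).xCoord_eq
  have x3 := (SmallExponents.tate_three hT hb hP).xCoord_eq
  have hbc : b ≠ c := by rw [← x2, ← x3]; exact ne 2 3 (by decide)
  have hd : b - c ≠ 0 := sub_ne_zero.mpr hbc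
  obtain ⟨r, hr⟩ : ∃ r, r = b / c := ⟨_, rfl⟩
  obtain ⟨s, hs⟩ : ∃ s, s = c ^ 2 / (b - c) := ⟨_, rfl⟩
  have eb : b = r * c := by rw [hr, div_mul_cancel₀ b hc]
  have ec : c = s * (r - 1) := by rw [hr, hs]; field_simp
  have hr1 : r * (r - 1) ≠ 0 := by
    rw [← (SmallExponents.tate_four hT hb hP hc eb).xCoord_eq, ← hP.xCoord_eq]
    simpa using ne 4 1 (by decide)
  have H5 := SmallExponents.tate_five hT hb hP hc eb hr1 ec
  have hx5 : r * s * (s - 1) ≠ 0 := by
    rw [← H5.xCoord_eq, ← hP.xCoord_eq]; simpa using ne 5 1 (by decide)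
  obtain ⟨hrs, hs1⟩ := mul_ne_zero_iff.mp hx5
  refine ⟨hc, hbc, fun e => hs1 ?_, ?_⟩
  · rw [hs]; field_simp; linear_combination e
  rw [← hr, ← hs]
  obtain ⟨m, hm⟩ : ∃ m, m = s * (r - s) / (s - 1) := ⟨_, rfl⟩
  have x6 := (SmallExponents.tate_six hT hb hP hc eb hr1 ec hx5 (m := m)
    (by rw [hm, div_mul_cancel₀ _ hs1])).xCoord_eq
  rw [show (6 • P : W.toAffine.Point) = -(5 • P) by
    rw [eq_neg_iff_add_eq_zero, ← add_nsmul]; exact h.nsmul_eq,
    SmallExponents.xCoord_neg, H5.xCoord_eq, eb, ec, hm] at x6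
  field_simp at x6
  simp only [relEleven]
  refine mul_left_cancel₀ (mul_ne_zero_iff.mp hrs).2 ?_
  linear_combination -x6

end Fermat.Agent.ExponentEleven
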