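import Mathlib.RingTheory.RootsOfUnity.PrimitiveRoots
import Fermat.Agent.ExponentEleven.TateForm

/-!
# Cuspidal Tate parameters

The cusps of `X₁(11)` defined over `ℚ(ζ₁₁)⁺`: Tate parameters of the nodal cubic at an
eleventh root of unity.
-/

namespace Fermat.Agent.ExponentEleven

open WeierstrassCurve

variable {K : Type*} [Field K]

/-- The parameter `b` of the nodal cubic at `t`. -/
def cuspB (t : K) : K := -t * (1 + t + t ^ 2) ^ 3 / (1 + t) ^ 8

/-- The parameter `c` of the nodal cubic at `t`. -/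
def cuspC (t : K) : K := -t * (1 + t ^ 2) / (1 + t) ^ 4

/-- The parameters `(b, c)` define a point of `X₁(11)` which is not a rational cusp. -/
structure GoodParams (b c : K) : Prop where
  hb : b ≠ 0
  hc : c ≠ 0
  hbc : b ≠ c
  hs : c ^ 2 - b + c ≠ 0
  hrel : relEleven (b / c) (c ^ 2 / (b - c)) = 0

variable {t : K}

lemma pow_ne_one_of_orderEleven (h11 : t ^ 11 = 1) (h1 : t ≠ 1) {k : ℕ} (hk : ¬ 11 ∣ k) :
    t ^ k ≠ 1 := by
  intro h
  apply h1
  have hc : Nat.Coprime k 11 :=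
    Nat.Coprime.symm ((by norm_num : Nat.Prime 11).coprime_iff_not_dvd.mpr hk)
  have := pow_gcd_eq_one.mpr ⟨h, h11⟩
  rwa [hc.gcd_eq_one, pow_one] at this

lemma cusp_ne (h11 : t ^ 11 = 1) (h1 : t ≠ 1) :
    t ≠ 0 ∧ 1 + t ≠ 0 ∧ 1 + t ^ 2 ≠ 0 ∧ 1 + t + t ^ 2 ≠ 0 ∧ 1 - t + t ^ 2 ≠ 0 ∧
      1 + t + t ^ 2 + t ^ 3 + t ^ 4 ≠ 0 := by
  have k := fun {n : ℕ} (hn : ¬ 11 ∣ n) => pow_ne_one_of_orderEleven h11 h1 hn
  refine ⟨?_, ?_, ?_, ?_, ?_, ?_⟩
  · rintro rfl; simp at h11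
  · exact fun h => k (n := 2) (by decide) (by linear_combination (t - 1) * h)
  · exact fun h => k (n := 4) (by decide) (by linear_combination (t ^ 2 - 1) * h)
  · exact fun h => k (n := 3) (by decide) (by linear_combination (t - 1) * h)
  · exact fun h => k (n := 6) (by decide) (by linear_combination (t + 1) * (t ^ 3 - 1) * h)
  · exact fun h => k (n := 5) (by decide) (by linear_combination (t - 1) * h)

lemma cuspB_sub_cuspC (hw : 1 + t ≠ 0) :
    cuspB t - cuspC t = t ^ 2 * (1 + t + t ^ 2 + t ^ 3 + t ^ 4) / (1 + t) ^ 8 := by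
  simp only [cuspB, cuspC]; field_simp; ring

lemma cuspC_sq_sub_cuspB_add (hw : 1 + t ≠ 0) :
    cuspC t ^ 2 - cuspB t + cuspC t = -t ^ 3 * (1 - t + t ^ 2) / (1 + t) ^ 8 := by
  simp only [cuspB, cuspC]; field_simp; ring

/-- The Tate parameters of a cusp are nondegenerate. -/
lemma good_cusp (h11 : t ^ 11 = 1) (h1 : t ≠ 1) : GoodParams (cuspB t) (cuspC t) := by
  obtain ⟨h0, hw, hS, hQ, hM, hP⟩ := cusp_ne h11 h1
  have e1 := cuspB_sub_cuspC hw
  have e2 := cuspC_sq_sub_cuspB_add hw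
  have hbc : cuspB t - cuspC t ≠ 0 := by
    rw [e1]; exact div_ne_zero (mul_ne_zero (pow_ne_zero 2 h0) hP) (pow_ne_zero 8 hw)
  refine ⟨?_, ?_, sub_ne_zero.mp hbc, ?_, ?_⟩
  · exact div_ne_zero (mul_ne_zero (neg_ne_zero.mpr h0) (pow_ne_zero 3 hQ)) (pow_ne_zero 8 hw)
  · exact div_ne_zero (mul_ne_zero (neg_ne_zero.mpr h0) hS) (pow_ne_zero 4 hw)
  · rw [e2]
    exact div_ne_zero (mul_ne_zero (neg_ne_zero.mpr (pow_ne_zero 3 h0)) hM) (pow_ne_zero 8 hw)
  · have hr : cuspB t / cuspC t = (1 + t + t ^ 2) ^ 3 / ((1 + t) ^ 4 * (1 + t ^ 2)) := by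
      simp only [cuspB, cuspC]; field_simp
    have hs : cuspC t ^ 2 / (cuspB t - cuspC t) =
        (1 + t ^ 2) ^ 2 / (1 + t + t ^ 2 + t ^ 3 + t ^ 4) := by
      rw [e1]; simp only [cuspC]; field_simp
    rw [hr, hs]
    simp only [relEleven]
    have hphi : 1 + t + t ^ 2 + t ^ 3 + t ^ 4 + t ^ 5 + t ^ 6 + t ^ 7 + t ^ 8 + t ^ 9 + t ^ 10
        = 0 := by
      refine mul_left_cancel₀ (sub_ne_zero.mpr h1) ?_
      linear_combination h11
    field_simp
    linear_combination (-t ^ 7) * hphi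

lemma Δ_cusp (hw : 1 + t ≠ 0) : (tateCurve (cuspB t) (cuspC t)).Δ = 0 := by
  simp only [WeierstrassCurve.Δ, WeierstrassCurve.b₂, WeierstrassCurve.b₄, WeierstrassCurve.b₆,
    WeierstrassCurve.b₈, tateCurve, cuspB, cuspC]
  field_simp
  ring

/-- Doubling sends the cusp attached to `t` to the cusp attached to `t²`. -/
lemma dbl_cusp (h11 : t ^ 11 = 1) (h1 : t ≠ 1) :
    bDbl (paramU (cuspB t) (cuspC t)) (paramV (cuspB t) (cuspC t)) = cuspB (t ^ 2) ∧
      cDbl (paramU (cuspB t) (cuspC t)) (paramV (cuspB t) (cuspC t)) = cuspC (t ^ 2) := by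
  obtain ⟨h0, hw, hS, hQ, hM, hP⟩ := cusp_ne h11 h1
  have hu : paramU (cuspB t) (cuspC t) = (1 + t + t ^ 2 + t ^ 3 + t ^ 4) ^ 2 /
      ((1 + t ^ 2) * (1 + t) ^ 4 * (1 - t + t ^ 2)) := by
    simp only [paramU]
    rw [cuspB_sub_cuspC hw, cuspC_sq_sub_cuspB_add hw]
    simp only [cuspC]
    field_simp
  have hv : paramV (cuspB t) (cuspC t) = -t * (1 + t + t ^ 2 + t ^ 3 + t ^ 4) /
      ((1 + t ^ 2) * (1 + t) ^ 4) := by
    simp only [paramV, cuspB, cuspC]; field_simp; ring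
  have huv : paramU (cuspB t) (cuspC t) + paramV (cuspB t) (cuspC t) =
      (1 + t + t ^ 2 + t ^ 3 + t ^ 4) * (1 + t ^ 2) / ((1 + t) ^ 4 * (1 - t + t ^ 2)) := by
    rw [hu, hv]; field_simp; ring
  constructor
  · simp only [bDbl]; rw [huv, hu, hv]; simp only [cuspB]
    field_simp
    ring
  · simp only [cDbl]; rw [huv, hu, hv]; simp only [cuspC]
    field_simp
    ring

end Fermat.Agent.ExponentEleven
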