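import Fermat.Agent.ExponentEleven.CubicUnits

/-!
# The 2-descent on `X₁(11)`

The 2-descent step on `y² + y = x³ - x²`: every rational point is, on `x`-coordinates,
the double of a rational point.
-/

noncomputable section

namespace Fermat.Agent.ExponentEleven

open NumberField

/-- If `a b` is a square and only `p`, `q` may divide both, then `a` is a unit times `pⁱ qʲ` times a
square. -/
lemma squarefree_decomp {R : Type*} [CommRing R] [IsDomain R] [UniqueFactorizationMonoid R]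
    (p q : R) (a : R) :
    ∀ b n : R, a * b = n ^ 2 → n ≠ 0 →
      (∀ π : R, Prime π → π ∣ a → π ∣ b → Associated π p ∨ Associated π q) →
      ∃ (u : Rˣ) (i j : Bool) (w : R),
        a = u * (if i then p else 1) * (if j then q else 1) * w ^ 2 := by
  induction a using (wellFounded_dvdNotUnit (α := R)).induction with
  | _ a ih =>
    intro b n hab hn hcommon
    have ha0 : a ≠ 0 := by
      rintro rfl
      rw [zero_mul] at hab
      exact pow_ne_zero 2 hn hab.symm
    by_cases hu : IsUnit a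
    · exact ⟨hu.unit, false, false, 1, by simp⟩
    obtain ⟨π, hπirr, hπa⟩ := WfDvdMonoid.exists_irreducible_factor hu ha0
    have hπ : Prime π := UniqueFactorizationMonoid.irreducible_iff_prime.mp hπirr
    obtain ⟨n', rfl⟩ := hπ.dvd_of_dvd_pow (hab ▸ hπa.mul_right b : π ∣ n ^ 2)
    obtain ⟨a', rfl⟩ := hπa
    have hn' : n' ≠ 0 := right_ne_zero_of_mul hn
    have ha' : a' ≠ 0 := right_ne_zero_of_mul ha0
    have h1 : a' * b = π * n' ^ 2 := mul_left_cancel₀ hπ.ne_zero (by linear_combination hab)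
    by_cases hπa' : π ∣ a'
    · obtain ⟨a'', rfl⟩ := hπa'
      have h2 : a'' * b = n' ^ 2 := mul_left_cancel₀ hπ.ne_zero (by linear_combination h1)
      have hlt : DvdNotUnit a'' (π * (π * a'')) :=
        ⟨right_ne_zero_of_mul ha', π * π, fun h => hπ.not_isUnit (isUnit_of_mul_isUnit_left h),
          by ring⟩
      obtain ⟨u, i, j, w, rfl⟩ := ih a'' hlt b n' h2 hn' fun ρ hρ h3 h4 =>
        hcommon ρ hρ ((h3.mul_left π).mul_left π) h4
      exact ⟨u, i, j, π * w, by ring⟩
    · obtain ⟨b', rfl⟩ : π ∣ b :=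
        (hπ.dvd_mul.mp ⟨n' ^ 2, h1⟩).resolve_left hπa'
      have h2 : a' * b' = n' ^ 2 := mul_left_cancel₀ hπ.ne_zero (by linear_combination h1)
      have hlt : DvdNotUnit a' (π * a') := ⟨ha', π, hπ.not_isUnit, by ring⟩
      obtain ⟨u, i, j, w, rfl⟩ := ih a' hlt b' n' h2 hn' fun ρ hρ h3 h4 =>
        hcommon ρ hρ (h3.mul_left π) (h4.mul_left π)
      rcases hcommon π hπ (dvd_mul_right _ _) (dvd_mul_right _ _) with hp | hq
      · obtain ⟨v, hv⟩ := hp.symm
        have hi : i = false := by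
          cases i with
          | false => rfl
          | true =>
            refine (hπa' ?_).elim
            simp only [if_true]
            exact ((hp.dvd.mul_left (u : R)).mul_right _).mul_right _
        subst hi
        refine ⟨u * v, true, j, w, ?_⟩
        rw [← hv]
        simp only [if_true, Bool.false_eq_true, if_false, Units.val_mul]
        ring
      · obtain ⟨v, hv⟩ := hq.symm
        have hj : j = false := by
          cases j with
          | false => rfl
          | true =>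
            refine (hπa' ?_).elim
            simp only [if_true]
            exact (hq.dvd.mul_left _).mul_right _
        subst hj
        refine ⟨u * v, i, true, w, ?_⟩
        rw [← hv]
        simp only [if_true, Bool.false_eq_true, if_false, Units.val_mul]
        ring

lemma normZ_elInt (a b c : ℤ) : Algebra.norm ℤ (elInt a b c) = normForm a b c := by
  have h := Algebra.coe_norm_int (elInt a b c)
  rw [norm_elInt] at h
  exact_mod_cast h

lemma isUnit_of_normZ {x : 𝓞 CubicK} (h : IsUnit (Algebra.norm ℤ x)) : IsUnit x := by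
  rw [NumberField.isUnit_iff_norm, RingOfIntegers.coe_norm, ← Algebra.coe_norm_int]
  rcases Int.isUnit_iff.mp h with h | h <;> simp [h]

lemma associated_of_dvd_of_prime_norm {π x : 𝓞 CubicK} (hπ : Prime π)
    (hx : (Algebra.norm ℤ x).natAbs.Prime) (h : π ∣ x) : Associated π x := by
  obtain ⟨c, rfl⟩ := h
  rw [map_mul, Int.natAbs_mul] at hx
  rcases Nat.prime_mul_iff.mp hx with ⟨-, h2⟩ | ⟨-, h2⟩
  · exact associated_mul_unit_right π c (isUnit_of_normZ (Int.isUnit_iff_natAbs_eq.mpr h2))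
  · exact absurd (isUnit_of_normZ (Int.isUnit_iff_natAbs_eq.mpr h2)) hπ.not_isUnit

lemma not_sq_ratio {d : ℕ} (hd : ¬ IsSquare d) {n k : ℕ} (hn : n ≠ 0) : n ^ 2 ≠ d * k ^ 2 := by
  intro h
  have hk : k ≠ 0 := by rintro rfl; simp at h; exact hn h
  obtain ⟨r, rfl⟩ := (Nat.pow_dvd_pow_iff two_ne_zero).mp
    (show k ^ 2 ∣ n ^ 2 from ⟨d, by rw [h]; ring⟩)
  exact hd ⟨r, Nat.eq_of_mul_eq_mul_right (show 0 < k ^ 2 by positivity) (by rw [← h]; ring)⟩

/-- With `z = m - 2e²β` and `z'` the product of its two conjugates, only the primes over 2 and 11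
divide both when `m` and `e` are coprime. -/
lemma associated_of_dvd_conjugates {m e : ℤ} (hcop : IsCoprime m e) {π : 𝓞 CubicK} (hπ : Prime π)
    (h1 : π ∣ elInt m (-2 * e ^ 2) 0)
    (h2 : π ∣ elInt (m ^ 2 - 4 * m * e ^ 2) (2 * m * e ^ 2 - 8 * e ^ 4) (4 * e ^ 4)) :
    Associated π (elInt 0 1 0) ∨ Associated π (elInt 3 (-4) 2) := by
  have hnotE : ¬ π ∣ (e : 𝓞 CubicK) := by
    intro he'
    obtain ⟨u, v, huv⟩ := hcop
    have hm : π ∣ (m : 𝓞 CubicK) := by
      have : (m : 𝓞 CubicK) =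
          elInt m (-2 * e ^ 2) 0 + (e : 𝓞 CubicK) * ((2 * e : ℤ) * elInt 0 1 0) := by
        rw [elInt_intCast, elInt_intCast, elInt_intCast, elInt_mul, elInt_mul, elInt_add]
        congr 1 <;> ring
      rw [this]; exact dvd_add h1 (he'.mul_right _)
    have : π ∣ (u : 𝓞 CubicK) * m + (v : 𝓞 CubicK) * e :=
      dvd_add (hm.mul_left _) (he'.mul_left _)
    rw [show (u : 𝓞 CubicK) * m + (v : 𝓞 CubicK) * e = 1 by exact_mod_cast huv] at this
    exact hπ.not_isUnit (isUnit_of_dvd_one this)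
  have hkey : π ∣ (e : 𝓞 CubicK) ^ 4 * ((2 : ℤ) : 𝓞 CubicK) ^ 2 * elInt 0 1 0 ^ 2 *
      elInt 3 (-4) 2 := by
    have : (e : 𝓞 CubicK) ^ 4 * ((2 : ℤ) : 𝓞 CubicK) ^ 2 * elInt 0 1 0 ^ 2 * elInt 3 (-4) 2
        = elInt (m ^ 2 - 4 * m * e ^ 2) (2 * m * e ^ 2 - 8 * e ^ 4) (4 * e ^ 4)
          - elInt (m - 4 * e ^ 2) (4 * e ^ 2) 0 * elInt m (-2 * e ^ 2) 0 := by
      have hβγ : elInt 0 1 0 ^ 2 * elInt 3 (-4) 2 = elInt 0 (-4) 3 := by
        rw [sq, elInt_mul, elInt_mul]; norm_num
      rw [show (e : 𝓞 CubicK) ^ 4 * ((2 : ℤ) : 𝓞 CubicK) ^ 2 = ((4 * e ^ 4 : ℤ) : 𝓞 CubicK) by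
        push_cast; ring, mul_assoc, hβγ, elInt_intCast, elInt_mul, elInt_mul, elInt_sub]
      congr 1 <;> ring
    rw [this]; exact dvd_sub h2 (h1.mul_left _)
  have hnormβ : (Algebra.norm ℤ (elInt 0 1 0)).natAbs.Prime := by
    rw [normZ_elInt]; norm_num [normForm]
  have hnormπ : (Algebra.norm ℤ (elInt 3 (-4) 2)).natAbs.Prime := by
    rw [normZ_elInt]; norm_num [normForm]
  have hβ : π ∣ elInt 0 1 0 → Associated π (elInt 0 1 0) :=
    associated_of_dvd_of_prime_norm hπ hnormβ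
  rcases hπ.dvd_mul.mp hkey with h | h
  · rcases hπ.dvd_mul.mp h with h | h
    · rcases hπ.dvd_mul.mp h with h | h
      · exact absurd (hπ.dvd_of_dvd_pow h) hnotE
      · have h2 := hπ.dvd_of_dvd_pow h
        have : elInt 0 1 0 ^ 3 = ((2 : ℤ) : 𝓞 CubicK) * elInt (-1) 0 1 := by
          simp only [pow_succ, pow_zero, one_mul, elInt_intCast, elInt_mul]
          norm_num
        exact Or.inl (hβ (hπ.dvd_of_dvd_pow (n := 3) (this ▸ h2.mul_right _)))
    · exact Or.inl (hβ (hπ.dvd_of_dvd_pow h))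
  · exact Or.inr (associated_of_dvd_of_prime_norm hπ hnormπ h)

/-- `m - 2e²β` is not `1 - β` times a square when `m` and `e` are coprime (modulo 4). -/
lemma not_epsUnit_mul_sq {m e r s t : ℤ} (hcop : IsCoprime m e)
    (hz2 : elInt m (-2 * e ^ 2) 0 = elInt 1 (-1) 0 * elInt r s t ^ 2) : False := by
  simp only [pow_two, elInt_mul] at hz2
  obtain ⟨h0, h1, h2⟩ := elInt_inj hz2
  obtain ⟨u, v, huv⟩ := hcop
  have key : ∀ r s t e : ZMod 4,
      -2 * e ^ 2 = (2 * r * s - 2 * t ^ 2) - (r ^ 2 - 4 * (s * t) - 4 * t ^ 2) →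
      -(2 * r * s - 2 * t ^ 2) - (s ^ 2 + 2 * r * t + 4 * (s * t) + 4 * t ^ 2) = 0 →
      2 * (r ^ 2 - 4 * (s * t) - 4 * t ^ 2 +
          2 * (s ^ 2 + 2 * r * t + 4 * (s * t) + 4 * t ^ 2)) = 0
        ∧ 2 * e = 0 := by
    decide +kernel
  have c0 := congrArg (Int.cast : ℤ → ZMod 4) h0
  have c1 := congrArg (Int.cast : ℤ → ZMod 4) h1
  have c2 := congrArg (Int.cast : ℤ → ZMod 4) h2
  have cu := congrArg (Int.cast : ℤ → ZMod 4) huv
  push_cast at c0 c1 c2 cu
  obtain ⟨km, ke⟩ := key r s t e (by linear_combination c1) (by linear_combination -c2)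
  have : (2 : ZMod 4) = 0 := by
    linear_combination -2 * cu + u * km + v * ke + 2 * (u : ZMod 4) * c0
  exact absurd this (by decide)

/-- Core of the descent in integers: a point gives integers `r, s, t` satisfying the halving
equations. -/
lemma descent_int {m e n : ℤ} (hcop : IsCoprime m e) (he : e ≠ 0)
    (hn : n ^ 2 = m ^ 3 - 4 * m ^ 2 * e ^ 2 + 16 * e ^ 6) :
    ∃ r s t : ℤ, r ^ 2 - 4 * s * t - 4 * t ^ 2 = m ∧
      r * s - t ^ 2 = -e ^ 2 ∧ s ^ 2 + 2 * r * t + 4 * s * t + 4 * t ^ 2 = 0 := by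
  set z := elInt m (-2 * e ^ 2) 0 with hz
  set z' := elInt (m ^ 2 - 4 * m * e ^ 2) (2 * m * e ^ 2 - 8 * e ^ 4) (4 * e ^ 4) with hz'
  have hzz : z * z' = elInt n 0 0 ^ 2 := by
    rw [hz, hz', sq (elInt n 0 0), elInt_mul, elInt_mul]
    congr 1
    · linear_combination -hn
    · ring
    · ring
  have hn0 : n ≠ 0 := by
    rintro rfl
    refine cubicPoly_no_root ((m : ℚ) / (2 * e ^ 2)) ?_
    have he' : (e : ℚ) ≠ 0 := by exact_mod_cast he
    have hq : ((m : ℚ)) ^ 3 - 4 * (m : ℚ) ^ 2 * (e : ℚ) ^ 2 + 16 * (e : ℚ) ^ 6 = 0 := by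
      exact_mod_cast hn.symm
    field_simp
    linear_combination hq
  have hn0' : elInt n 0 0 ≠ 0 := by
    rw [show (0 : 𝓞 CubicK) = elInt 0 0 0 from RingOfIntegers.ext (by simp [coe_elInt, el])]
    exact fun h => hn0 (elInt_inj h).1
  have hcommon : ∀ π : 𝓞 CubicK, Prime π → π ∣ z → π ∣ z' →
      Associated π (elInt 0 1 0) ∨ Associated π (elInt 3 (-4) 2) := fun π hπ h1 h2 =>
    associated_of_dvd_conjugates hcop hπ h1 h2
  obtain ⟨u, i, j, w, hzw⟩ := squarefree_decomp _ _ z z' (elInt n 0 0) hzz hn0' hcommon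
  have hNz : Algebra.norm ℤ z = n ^ 2 := by
    rw [hz, normZ_elInt, hn]; simp [normForm]; ring
  have hNu : (Algebra.norm ℤ (u : 𝓞 CubicK)).natAbs = 1 :=
    Int.isUnit_iff_natAbs_eq.mp (u.isUnit.map _)
  have hij : i = false ∧ j = false := by
    have h := congrArg (fun x => (Algebra.norm ℤ x).natAbs) hzw
    simp only [hNz, map_mul, map_pow, Int.natAbs_mul, Int.natAbs_pow, hNu] at h
    have hn1 : n.natAbs ≠ 0 := by simpa using hn0
    cases i <;> cases j <;> simp [normZ_elInt, normForm] at h ⊢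
    all_goals exact not_sq_ratio (by decide +kernel) hn1 h
  obtain ⟨rfl, rfl⟩ := hij
  simp only [Bool.false_eq_true, if_false, mul_one] at hzw
  obtain ⟨s, i, w', hu⟩ := units_mod_squares u
  have hneg : s = 1 := by
    rcases Int.units_eq_one_or s with rfl | rfl
    · rfl
    · exfalso
      have h := congrArg (Algebra.norm ℤ) hzw
      rw [hNz, hu] at h
      simp only [map_mul, map_pow, Units.val_neg, Units.val_one, elInt_intCast, normZ_elInt] at h
      have hpos : (0 : ℤ) < n ^ 2 := by positivity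
      cases i <;> simp [normForm, normZ_elInt] at h <;>
        nlinarith [sq_nonneg (Algebra.norm ℤ w' * Algebra.norm ℤ w)]
  subst hneg
  obtain ⟨r, s, t, hr⟩ := exists_elInt (w' * w)
  have hz2 : z = (if i then elInt 1 (-1) 0 else 1) * elInt r s t ^ 2 := by
    rw [← hr, hzw, hu]; simp; ring_nf
  cases i with
  | false =>
    simp only [Bool.false_eq_true, if_false, one_mul, hz, pow_two, elInt_mul] at hz2
    obtain ⟨h0, h1, h2⟩ := elInt_inj hz2
    exact ⟨r, s, t, by linarith, by linarith, by linarith⟩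
  | true =>
    simp only [if_true, hz] at hz2
    exact (not_epsUnit_mul_sq hcop hz2).elim

end Fermat.Agent.ExponentEleven
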