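import Fermat.Agent.ExponentEleven.Twist

/-!
# No point of order 11 with cyclotomic Galois action

The Tate parameters of a point of order 11 on an elliptic curve over `ℚ` give a point of `X₁(11)`.
If Galois acts on the point through the cyclotomic character, this point differs from a cuspidal one
by a rational, hence cuspidal, point, which is absurd.
-/

noncomputable section

namespace Fermat.Agent.ExponentEleven

open WeierstrassCurve WeierstrassCurve.Affine
open scoped WeierstrassCurve.Affine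

local notation "Qb" => AlgebraicClosure ℚ
local notation "GQ" => AlgebraicClosure ℚ ≃ₐ[ℚ] AlgebraicClosure ℚ

variable (E : WeierstrassCurve ℚ)

/-- `(b, c)` are Tate parameters of the point `T` of order 11. -/
def IsParam (T : (E⁄Qb).toAffine.Point) (b c : Qb) : Prop :=
  ∃ (x y : Qb) (h : (E⁄Qb).toAffine.Nonsingular x y),
    T = .some x y h ∧ GoodParams b c ∧ (tateCurve b c).Δ ≠ 0 ∧ HasTate (E⁄Qb) x y b c

variable {E}

lemma IsParam.unique {T : (E⁄Qb).toAffine.Point} {b c b' c' : Qb} (h : IsParam E T b c)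
    (h' : IsParam E T b' c') : b = b' ∧ c = c' := by
  obtain ⟨x, y, hxy, rfl, g, -, ht⟩ := h
  obtain ⟨x', y', hxy', e, -, -, ht'⟩ := h'
  rw [Affine.Point.some.injEq] at e
  obtain ⟨rfl, rfl⟩ := e
  exact hasTate_unique g.hb ht ht'

lemma IsParam.map {T : (E⁄Qb).toAffine.Point} {b c : Qb} (h : IsParam E T b c) (σ : GQ) :
    IsParam E (σ • T) (σ b) (σ c) := by
  obtain ⟨x, y, hxy, rfl, g, hΔ, ht⟩ := h
  refine ⟨σ x, σ y, (Affine.baseChange_nonsingular E σ.toAlgHom.injective x y).mpr hxy, ?_,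
    g.map σ, ?_, ?_⟩
  · rw [Affine.Point.algEquiv_smul_def, Affine.Point.map_some]; rfl
  · have hmap : tateCurve (σ b) (σ c) = (tateCurve b c).map (σ.toRingEquiv.toRingHom) := by
      simp [tateCurve, WeierstrassCurve.map]
    rw [hmap, WeierstrassCurve.map_Δ]
    exact fun h => hΔ ((map_eq_zero_iff _ σ.injective).mp h)
  · have h2 := HasTate.map ht (σ.toAlgHom : Qb →+* Qb)
    have e : (E⁄Qb).map (σ.toAlgHom : Qb →+* Qb) = E⁄Qb :=
      (E.map_map _ _).trans (congrArg E.map σ.toAlgHom.comp_algebraMap)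
    exact Eq.mp (congrArg (fun W' => HasTate W' _ _ _ _) e) h2

variable [E.IsElliptic]

lemma baseChange_Δ_ne_zero : (E⁄Qb).Δ ≠ 0 := by
  show (E.map (algebraMap ℚ Qb)).Δ ≠ 0
  rw [WeierstrassCurve.map_Δ]
  exact (map_ne_zero_iff _ (algebraMap ℚ Qb).injective).mpr E.isUnit_Δ.ne_zero

/-- A point of order 11 has Tate parameters. -/
lemma exists_isParam {T : (E⁄Qb).toAffine.Point} (h11 : 11 • T = 0) (h0 : T ≠ 0) :
    ∃ b c, IsParam E T b c := by
  rcases T with _ | ⟨x, y, h⟩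
  · exact absurd rfl h0
  have hQ : SmallExponents.PrimeOrder (Affine.Point.some x y h) 11 := ⟨by norm_num, h0, h11⟩
  obtain ⟨C, b, c, P, hT, hb, hP, hPQ, hPo⟩ := SmallExponents.exists_tate hQ (by norm_num)
  have hΔ : (tateCurve b c).Δ ≠ 0 := by
    rw [← eq_tateCurve_of_isTate hT, variableChange_Δ]
    exact mul_ne_zero (pow_ne_zero _ (Units.ne_zero _)) baseChange_Δ_ne_zero
  obtain ⟨hc, hbc, hs, hrel⟩ := tate_eleven hT hb hP hPo
  exact ⟨b, c, x, y, h, rfl, ⟨hb, hc, hbc, hs, hrel⟩, hΔ, hasTate_of_vcHom hT hP hPQ⟩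

/-- The Tate parameters of `2T` in terms of those of `T`. -/
lemma IsParam.dbl {T : (E⁄Qb).toAffine.Point} {b c : Qb} (h11 : 11 • T = 0)
    (h : IsParam E T b c) :
    IsParam E (2 • T) (bDbl (paramU b c) (paramV b c)) (cDbl (paramU b c) (paramV b c)) := by
  obtain ⟨x, y, hxy, rfl, g, -, ht⟩ := h
  have hQ : SmallExponents.PrimeOrder (Affine.Point.some x y hxy) 11 :=
    ⟨by norm_num, Affine.Point.some_ne_zero hxy, h11⟩
  obtain ⟨C, b₀, c₀, P, hT, -, hP, hPQ, -⟩ := SmallExponents.exists_tate hQ (by norm_num)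
  obtain ⟨rfl, rfl⟩ := hasTate_unique g.hb ht (hasTate_of_vcHom hT hP hPQ)
  have h2 := hQ.nsmul (i := 2) (by decide)
  obtain ⟨b', c', hp⟩ := exists_isParam h2.nsmul_eq h2.ne_zero
  obtain ⟨hn, e2⟩ : ∃ hn, 2 • Affine.Point.some x y hxy =
      .some (SmallExponents.vcX C b) (SmallExponents.vcY C b (b * c)) hn := by
    obtain ⟨n, e⟩ := SmallExponents.tate_two hT g.hb hP
    exact ⟨_, by rw [← hPQ, ← map_nsmul, e, SmallExponents.vcHom_some]⟩
  have htd := HasTate.trans (eq_tateCurve_of_isTate hT) (hasTate_dbl g.hb g.hc g.hbc g.hs)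
  obtain ⟨x', y', hxy', ep, g', -, ht'⟩ := id hp
  rw [e2, Affine.Point.some.injEq] at ep
  obtain ⟨rfl, rfl⟩ := ep
  obtain ⟨rfl, rfl⟩ := hasTate_unique g'.hb ht' htd
  exact hp

/-- The point of `X₁(11)` of `2ⁿT` is the translate of that of `T` by `nτ`. -/
lemma exists_isParam_two_pow {T : (E⁄Qb).toAffine.Point} (h11 : 11 • T = 0) {b c : Qb}
    (h : IsParam E T b c) (g : GoodParams b c) :
    ∀ n : ℕ, ∃ (b' c' : Qb) (g' : GoodParams b' c'),
      IsParam E (2 ^ n • T) b' c' ∧ param g' = param g + n • tau := by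
  intro n
  induction n with
  | zero => exact ⟨b, c, g, by rwa [pow_zero, one_nsmul], by rw [zero_nsmul, add_zero]⟩
  | succ n ih =>
    obtain ⟨b', c', g', hp, he⟩ := ih
    have hd := hp.dbl (by rw [nsmul_left_comm, h11, nsmul_zero])
    rw [← mul_nsmul', ← pow_succ'] at hd
    obtain ⟨_, _, _, _, g'', -, -⟩ := id hd
    exact ⟨_, _, g'', hd, by rw [param_dbl g' g'', he, succ_nsmul, add_assoc]⟩

/-- The cusp of `t ^ 2ⁿ` is the translate of the cusp of `t` by `nτ`. -/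
lemma param_cusp_two_pow {t : Qb} (h11 : t ^ 11 = 1) (h1 : t ≠ 1) :
    ∀ n : ℕ, ∃ g : GoodParams (cuspB (t ^ (2 ^ n))) (cuspC (t ^ (2 ^ n))),
      param g = param (good_cusp h11 h1) + n • tau := by
  intro n
  induction n with
  | zero =>
    simp only [pow_zero, pow_one, zero_nsmul, add_zero]
    exact ⟨good_cusp h11 h1, trivial⟩
  | succ n ih =>
    obtain ⟨g, hg⟩ := ih
    have k11 : ∀ k : ℕ, (t ^ k) ^ 11 = 1 := fun k => by
      rw [← pow_mul, mul_comm, pow_mul, h11, one_pow]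
    have k1 : ∀ k : ℕ, t ^ (2 ^ k) ≠ 1 := fun k => pow_ne_one_of_orderEleven h11 h1
      (fun h => absurd ((by norm_num : Nat.Prime 11).dvd_of_dvd_pow h) (by norm_num))
    obtain ⟨eb, ec⟩ := dbl_cusp (k11 (2 ^ n)) (k1 n)
    rw [← pow_mul, ← pow_succ] at eb ec
    have g' : GoodParams (bDbl (paramU (cuspB (t ^ 2 ^ n)) (cuspC (t ^ 2 ^ n)))
        (paramV (cuspB (t ^ 2 ^ n)) (cuspC (t ^ 2 ^ n))))
        (cDbl (paramU (cuspB (t ^ 2 ^ n)) (cuspC (t ^ 2 ^ n)))
          (paramV (cuspB (t ^ 2 ^ n)) (cuspC (t ^ 2 ^ n)))) := by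
      rw [eb, ec]; exact good_cusp (k11 _) (k1 _)
    refine ⟨good_cusp (k11 _) (k1 _), ?_⟩
    rw [succ_nsmul, ← add_assoc, ← hg, ← param_dbl g g']
    exact param_congr _ _ eb.symm ec.symm

/-- An elliptic curve over `ℚ` has no point of order 11 on which the Galois group acts through
the cyclotomic character. -/
theorem no_cyclotomic_point {t : Qb} (ht : IsPrimitiveRoot t 11) {T : (E⁄Qb).toAffine.Point}
    (h11 : 11 • T = 0) (h0 : T ≠ 0)
    (hσ : ∀ σ : GQ, ∃ a : ℕ, ¬ 11 ∣ a ∧ σ t = t ^ a ∧ σ • T = a • T) : False := by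
  have t11 : t ^ 11 = 1 := ht.pow_eq_one
  have t1 : t ≠ 1 := ht.ne_one (by norm_num)
  obtain ⟨b, c, hp⟩ := exists_isParam h11 h0
  obtain ⟨_, _, _, _, g, hΔ, -⟩ := id hp
  set g0 := good_cusp t11 t1
  have hshift : ∀ σ : GQ, ∃ n : ℕ,
      σ • param g = param g + n • tau ∧ σ • param g0 = param g0 + n • tau := by
    intro σ
    obtain ⟨a, ha, hat, haT⟩ := hσ σ
    obtain ⟨n, hn⟩ : ∃ n : Fin 10, (a : ZMod 11) = 2 ^ (n : ℕ) := by
      have key : ∀ z : ZMod 11, z ≠ 0 → ∃ n : Fin 10, z = 2 ^ (n : ℕ) := by decide +kernel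
      exact key _ fun h => ha ((CharP.cast_eq_zero_iff (ZMod 11) 11 a).mp h)
    have hmod : a ≡ 2 ^ (n : ℕ) [MOD 11] :=
      (ZMod.natCast_eq_natCast_iff _ _ _).mp (by rw [hn]; push_cast; rfl)
    refine ⟨n, ?_, ?_⟩
    · obtain ⟨b', c', g', hp', he⟩ := exists_isParam_two_pow h11 hp g n
      have haT' : σ • T = 2 ^ (n : ℕ) • T := by
        rw [haT]
        refine nsmul_eq_nsmul_iff_modEq.mpr ?_
        have : Fact (Nat.Prime 11) := ⟨by norm_num⟩
        rw [addOrderOf_eq_prime h11 h0]; exact hmod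
      obtain ⟨rfl, rfl⟩ := (hp.map σ).unique (haT' ▸ hp')
      rw [smul_param, ← he]
    · obtain ⟨g', he⟩ := param_cusp_two_pow t11 t1 n
      rw [smul_param, ← he]
      have hσt : σ t = t ^ (2 ^ (n : ℕ)) := by
        rw [hat]
        rw [pow_eq_pow_mod a t11, pow_eq_pow_mod (2 ^ (n : ℕ)) t11, hmod]
      exact param_congr _ _ (by simp [cuspB, hσt]) (by simp [cuspC, hσt])
  obtain ⟨k, hk⟩ := eq_nsmul_tau_of_fixed (param g - param g0) fun σ => by
    obtain ⟨n, e1, e2⟩ := hshift σ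
    rw [smul_sub, e1, e2, add_sub_add_right_eq_sub]
  obtain ⟨g', he⟩ := param_cusp_two_pow t11 t1 k
  obtain ⟨eb, ec⟩ := param_inj g g' (by rw [he, ← hk, add_sub_cancel])
  apply hΔ
  rw [eb, ec]
  exact Δ_cusp (cusp_ne (by rw [← pow_mul, mul_comm, pow_mul, t11, one_pow])
    (pow_ne_one_of_orderEleven t11 t1
      (fun h => absurd ((by norm_num : Nat.Prime 11).dvd_of_dvd_pow h) (by norm_num)))).2.1

end Fermat.Agent.ExponentEleven
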