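import Fermat.Prelude.Def_FLTPrelim_CofixedLine
import Fermat.Prelude.Def_FreyPackage_DetCyclotomic
import Fermat.Agent.EC.TorsionCard
import Fermat.Agent.ExponentEleven.Level
import Fermat.Agent.Gal.RepTwo

/-!
# No cofixed line in the 11-torsion

An elliptic curve over `ℚ` whose mod-11 determinant is cyclotomic has no Galois-stable cofixed
line in its 11-torsion.
-/

noncomputable section

namespace Fermat.Agent.ExponentEleven

open WeierstrassCurve WeierstrassCurve.Affine WeierstrassCurve.Affine.Point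
open scoped WeierstrassCurve.Affine

local notation "Qb" => AlgebraicClosure ℚ
local notation "GQ" => AlgebraicClosure ℚ ≃ₐ[ℚ] AlgebraicClosure ℚ

instance : Fact (Nat.Prime 11) := ⟨by norm_num⟩

/-- No elliptic curve over `ℚ` with cyclotomic mod-11 determinant has a Galois-stable cofixed line
in its 11-torsion. -/
theorem no_cofixed_eleven (E : WeierstrassCurve ℚ) [E.IsElliptic]
    (hdet : ∀ hn, Affine.Point.GaloisRepDetEqCyclotomic (K := Qb) ℚ E 11 hn) :
    ¬ HasGaloisStableCofixedLine (K := Qb) ℚ E 11 := by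
  rintro ⟨N, hst, hbot, htop, hcof⟩
  have hV : Module.finrank (ZMod 11) (Submodule.torsionBy ℤ (E⁄Qb).Point (11 : ℕ)) = 2 :=
    EC.finrank_torsionBy E 11 (by norm_num)
  have : FiniteDimensional (ZMod 11) (Submodule.torsionBy ℤ (E⁄Qb).Point (11 : ℕ)) :=
    FiniteDimensional.of_finrank_pos (by rw [hV]; norm_num)
  obtain ⟨T, hTN, hT0⟩ := Submodule.exists_mem_ne_zero_of_ne_bot hbot
  obtain ⟨x, -, hx⟩ := SetLike.exists_of_lt (lt_top_iff_ne_top.mpr htop)
  have hN : ∀ y ∈ N, ∃ c : ZMod 11, y = c • T := by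
    intro y hy
    have h1 : Module.finrank (ZMod 11) N ≤ 1 := by
      have := Submodule.finrank_lt htop; omega
    obtain ⟨⟨v, hv⟩, hv'⟩ := finrank_le_one_iff.mp h1
    obtain ⟨cT, hcT⟩ := hv' ⟨T, hTN⟩
    obtain ⟨cy, hcy⟩ := hv' ⟨y, hy⟩
    simp only [SetLike.mk_smul_mk, Subtype.mk.injEq] at hcT hcy
    have : cT ≠ 0 := by rintro rfl; exact hT0 (by rw [← hcT, zero_smul])
    exact ⟨cy * cT⁻¹, by rw [← hcT, smul_smul, mul_assoc, inv_mul_cancel₀ this, mul_one, hcy]⟩
  obtain ⟨t, ht⟩ : ∃ t : Qb, IsPrimitiveRoot t 11 :=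
    HasEnoughRootsOfUnity.exists_primitiveRoot Qb 11
  have hn : Nat.card (rootsOfUnity 11 Qb) = 11 := IsAlgClosed.card_rootsOfUnity_eq Qb 11
  have hT11 : 11 • (T : (E⁄Qb).Point) = 0 := by
    have := (Submodule.mem_torsionBy_iff _ _).mp T.2
    rwa [natCast_zsmul] at this
  refine no_cyclotomic_point (E := E) ht (T := (T : (E⁄Qb).Point)) hT11
    (fun h => hT0 (Subtype.ext h)) fun σ => ?_
  obtain ⟨a, ha⟩ := hN (σ • T) (hst σ T hTN)
  obtain ⟨b, hb⟩ := hN _ (hcof σ x)
  set χ := modularCyclotomicCharacter Qb hn (σ : Qb ≃+* Qb) with hχ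
  have hdetσ := hdet hn σ
  have hax : (χ : ZMod 11) = a := by
    rw [hχ, ← hdetσ, galoisRepDet_apply, LinearEquiv.coe_det]
    exact Gal.det_eq_of_line hV hTN hT0 hx _ ha (sub_eq_iff_eq_add.mp hb)
  refine ⟨a.val, fun h => ?_, ?_, ?_⟩
  · refine χ.ne_zero (hax.trans ?_)
    rw [← ZMod.natCast_rightInverse a]
    exact (CharP.cast_eq_zero_iff (ZMod 11) 11 _).mpr h
  · have htu : ((ht.isUnit (by norm_num)).unit) ∈ rootsOfUnity 11 Qb := by
      rw [mem_rootsOfUnity, Units.ext_iff, Units.val_pow_eq_pow_val]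
      exact ht.pow_eq_one
    have hsp := modularCyclotomicCharacter.spec (L := Qb) hn (σ : Qb ≃+* Qb) htu
    rw [IsUnit.unit_spec, ← hχ, hax] at hsp
    exact hsp
  · have e : a • T = a.val • T := by
      conv_lhs => rw [← ZMod.natCast_rightInverse a, Nat.cast_smul_eq_nsmul]
    exact congrArg Subtype.val (ha.trans e)

end Fermat.Agent.ExponentEleven
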