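import Fermat.Agent.ExponentEleven.Descent

/-!
# The rational points of `X₁(11)`

The rational points of `y² + y = x³ - x²` (i.e. `X₁(11)`) have `x ∈ {0, 1}`.
-/

namespace Fermat.Agent.ExponentEleven

/-- `(2y + 1)²` as a function of `x` on `X₁(11) : y² + y = x³ - x²`. -/
def cubicRHS {R : Type*} [CommRing R] (x : R) : R := 4 * x ^ 3 - 4 * x ^ 2 + 1

/-- Clearing denominators in a rational point of `y² = 4x³ - 4x² + 1`. -/
lemma exists_coprime_repr {x : ℚ} (h : IsSquare (cubicRHS x)) :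
    ∃ m e n : ℤ, IsCoprime m e ∧ e ≠ 0 ∧ 4 * x = (m : ℚ) / (e : ℚ) ^ 2 ∧
      n ^ 2 = m ^ 3 - 4 * m ^ 2 * e ^ 2 + 16 * e ^ 6 := by
  obtain ⟨y, hy⟩ := h
  set X := 4 * x with hX
  set Y := 4 * y with hY
  have hXY : Y ^ 2 = X ^ 3 - 4 * X ^ 2 + 16 := by
    simp only [cubicRHS] at hy; rw [hX, hY]; linear_combination -16 * hy
  set P := X.num
  set r := Y.num
  set Q : ℤ := (X.den : ℤ) with hQ
  set D : ℤ := (Y.den : ℤ) with hD
  have hQ0 : Q ≠ 0 := by simp [hQ]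
  have hD0 : D ≠ 0 := by simp [hD]
  have hPQ : IsCoprime P Q := Rat.isCoprime_num_den X
  have hrD : IsCoprime r D := Rat.isCoprime_num_den Y
  set S := P ^ 3 - 4 * P ^ 2 * Q + 16 * Q ^ 3 with hS
  have hz : r ^ 2 * Q ^ 3 = S * D ^ 2 := by
    have h1 : (P : ℚ) = X * (Q : ℚ) := by simp [P, hQ]
    have h2 : (r : ℚ) = Y * (D : ℚ) := by simp [r, hD]
    have : ((r ^ 2 * Q ^ 3 : ℤ) : ℚ) = ((S * D ^ 2 : ℤ) : ℚ) := by
      push_cast [hS]
      rw [h1, h2]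
      linear_combination (D : ℚ) ^ 2 * (Q : ℚ) ^ 3 * hXY
    exact_mod_cast this
  have hSQ : IsCoprime S (Q ^ 3) := by
    have : S = P ^ 3 + Q * (-4 * P ^ 2 + 16 * Q ^ 2) := by rw [hS]; ring
    rw [this]
    exact IsCoprime.pow_right ((hPQ.pow_left).add_mul_left_left _)
  have h1 : D ^ 2 ∣ Q ^ 3 := (hrD.symm.pow (m := 2) (n := 2)).dvd_of_dvd_mul_left
    ⟨S, by linear_combination hz⟩
  have h2 : Q ^ 3 ∣ D ^ 2 := hSQ.symm.dvd_of_dvd_mul_left ⟨r ^ 2, by linear_combination -hz⟩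
  have h3 : D ^ 2 = Q ^ 3 := Int.dvd_antisymm (by positivity) (by positivity) h1 h2
  obtain ⟨e, he⟩ : Q ∣ D :=
    (Int.pow_dvd_pow_iff two_ne_zero).mp ⟨Q, by linear_combination h3⟩
  have hQe : Q = e ^ 2 := by
    refine mul_left_cancel₀ (pow_ne_zero 2 hQ0) ?_
    rw [he] at h3; linear_combination -h3
  refine ⟨P, e, r, ?_, ?_, ?_, ?_⟩
  · rw [hQe] at hPQ; exact (IsCoprime.pow_right_iff (by norm_num : 0 < 2)).mp hPQ
  · rintro rfl; simp at hQe; exact hQ0 hQe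
  · have : ((e : ℚ)) ^ 2 = (X.den : ℚ) := by
      have : ((e ^ 2 : ℤ) : ℚ) = ((Q : ℤ) : ℚ) := by rw [hQe]
      simpa [hQ] using this
    rw [this, Rat.num_div_den]
  · refine mul_right_cancel₀ (pow_ne_zero 2 hD0) ?_
    linear_combination hz + r ^ 2 * h3 + D ^ 2 * hS -
      D ^ 2 * (4 * P ^ 2 - 16 * (Q ^ 2 + Q * e ^ 2 + e ^ 4)) * hQe

/-- Every rational point is, on `x`-coordinates, the double of a rational point. -/
lemma exists_half {x : ℚ} (h : IsSquare (cubicRHS x)) :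
    ∃ x' : ℚ, IsSquare (cubicRHS x') ∧ x * cubicRHS x' = x' ^ 4 - 2 * x' + 1 := by
  obtain ⟨m, e, n, hcop, he, hx, hn⟩ := exists_coprime_repr h
  obtain ⟨r, s, t, h0, h1, h2⟩ := descent_int hcop he hn
  have he' : (e : ℚ) ≠ 0 := by exact_mod_cast he
  have h0' : (r : ℚ) ^ 2 - 4 * s * t - 4 * t ^ 2 = m := by exact_mod_cast h0
  have h1' : (r : ℚ) * s - (t : ℚ) ^ 2 = -(e : ℚ) ^ 2 := by exact_mod_cast h1
  have h2' : (s : ℚ) ^ 2 + 2 * r * t + 4 * s * t + 4 * (t : ℚ) ^ 2 = 0 := by exact_mod_cast h2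
  have ht : (t : ℚ) ≠ 0 := by
    intro ht; rw [ht] at h1' h2'
    have : (s : ℚ) = 0 := by simpa using h2'
    rw [this] at h1'; simp at h1'; exact he h1'
  have hr : (r : ℚ) = -((s : ℚ) ^ 2 + 4 * s * t + 4 * (t : ℚ) ^ 2) / (2 * t) := by
    field_simp; linear_combination h2'
  have he2 : (e : ℚ) ^ 2 = (t : ℚ) ^ 2 - r * s := by linear_combination h1'
  set u : ℚ := s + 2 * t with hu
  refine ⟨u / (2 * t), ⟨((r * t - u * s) * u + (-u * r - 2 * (t : ℚ) ^ 2) * t) /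
      (2 * e * (t : ℚ) ^ 2),
    ?_⟩, ?_⟩
  · have key : 4 * (u / (2 * t)) ^ 3 - 4 * (u / (2 * t)) ^ 2 + 1 =
        (4 * u ^ 3 - 8 * u ^ 2 * t + 8 * (t : ℚ) ^ 3) / (8 * (t : ℚ) ^ 3) := by
      field_simp; ring
    rw [← pow_two, div_pow, cubicRHS, key, mul_pow, mul_pow, he2]
    have hne : (t : ℚ) ^ 2 - r * s ≠ 0 := he2 ▸ pow_ne_zero 2 he'
    rw [div_eq_div_iff (by positivity) (by positivity)]
    simp only [hu]
    linear_combination 2 * (t : ℚ) ^ 3 * (-4 * (s : ℚ) ^ 4 - 16 * (s : ℚ) ^ 3 * t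
      - 16 * (s : ℚ) ^ 2 * (t : ℚ) ^ 2 - 8 * s * (t : ℚ) ^ 3) * h2'
  · have hx' : x = m / (4 * (e : ℚ) ^ 2) := by
      rw [show x = (4 * x) / 4 by ring, hx]; field_simp
    rw [hx', cubicRHS]
    field_simp
    rw [he2, ← h0']
    simp only [hu]
    linear_combination (4 * (r : ℚ) * (s : ℚ) ^ 3 + 16 * r * (s : ℚ) ^ 2 * t
      - 36 * (s : ℚ) ^ 2 * (t : ℚ) ^ 2 + 16 * r * s * (t : ℚ) ^ 2 - 48 * s * (t : ℚ) ^ 3
      + 8 * r * (t : ℚ) ^ 3 - 16 * (t : ℚ) ^ 4) * h2'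

lemma eq_zero_or_eq_of_isSquare_small : ∀ m ∈ Finset.Icc (-5 : ℤ) 5, ∀ d ∈ Finset.Icc (1 : ℤ) 5,
    IsSquare (d * (4 * m ^ 3 - 4 * m ^ 2 * d + d ^ 3)) → m = 0 ∨ m = d := by
  decide +kernel

/-- If the double `p/q` of the point with `x = m/d` has height at most the height `H` of `m/d`,
then `H ≤ 5`. -/
lemma height_bound {m d p q H : ℤ} (hd : 0 < d) (hq : q ≠ 0) (hmd : IsCoprime m d)
    (hpq : IsCoprime p q)
    (h : p * (d * (4 * m ^ 3 - 4 * m ^ 2 * d + d ^ 3)) = q * (m ^ 4 - 2 * m * d ^ 3 + d ^ 4))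
    (hm : |m| ≤ H) (hdH : d ≤ H) (heq : |m| = H ∨ d = H) (hp : |p| ≤ H) (hqH : |q| ≤ H) :
    H ≤ 5 := by
  obtain ⟨k, hk⟩ : q ∣ d * (4 * m ^ 3 - 4 * m ^ 2 * d + d ^ 3) :=
    hpq.symm.dvd_of_dvd_mul_left ⟨_, h⟩
  have hA : m ^ 4 - 2 * m * d ^ 3 + d ^ 4 = p * k :=
    mul_left_cancel₀ hq (by rw [hk] at h; linear_combination -h)
  set P1 := 48 * m ^ 2 * d - 32 * m * d ^ 2 - 16 * d ^ 3
  set Q1 := -12 * m ^ 3 - 4 * m ^ 2 * d + 27 * d ^ 3
  set P2 := 11 * m ^ 3 - 20 * m ^ 2 * d + 4 * m * d ^ 2 + 6 * d ^ 3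
  set Q2 := 5 * m ^ 3 + 4 * m ^ 2 * d + 8 * m * d ^ 2 - 6 * d ^ 3
  have e1 : 11 * d ^ 7 = k * (P1 * p + Q1 * q) := by
    linear_combination P1 * hA + Q1 * hk
  have e2 : 11 * m ^ 7 = k * (P2 * p + Q2 * q) := by
    linear_combination P2 * hA + Q2 * hk
  obtain ⟨a, b, hab⟩ := hmd.pow (m := 7) (n := 7)
  have hk11 : k ∣ 11 := by
    have := dvd_add (dvd_mul_of_dvd_right ⟨_, e2⟩ a : k ∣ a * (11 * m ^ 7))
      (dvd_mul_of_dvd_right ⟨_, e1⟩ b : k ∣ b * (11 * d ^ 7))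
    rwa [show a * (11 * m ^ 7) + b * (11 * d ^ 7) = 11 by linear_combination 11 * hab] at this
  have hk' : |k| ≤ 11 := Int.le_of_dvd (by norm_num) ((abs_dvd _ _).mpr hk11)
  have hH : 0 < H := lt_of_lt_of_le hd hdH
  have hdabs : |d| ≤ H := by rwa [abs_of_pos hd]
  have mono : ∀ i j : ℕ, i + j = 3 → |m ^ i * d ^ j| ≤ H ^ 3 := by
    intro i j hij
    rw [abs_mul, abs_pow, abs_pow, ← hij, pow_add]
    gcongr
  have a1 : |m ^ 3| ≤ H ^ 3 := by simpa using mono 3 0 rfl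
  have a2 : |m ^ 2 * d| ≤ H ^ 3 := by simpa using mono 2 1 rfl
  have a3 : |m * d ^ 2| ≤ H ^ 3 := by simpa using mono 1 2 rfl
  have a4 : |d ^ 3| ≤ H ^ 3 := by simpa using mono 0 3 rfl
  have bound : ∀ x y : ℤ, |x| + |y| ≤ 139 * H ^ 3 → |k * (x * p + y * q)| ≤ 11 * (139 * H ^ 4) := by
    intro x y hxy
    rw [abs_mul]
    refine mul_le_mul hk' ?_ (abs_nonneg _) (by norm_num)
    calc |x * p + y * q| ≤ |x| * |p| + |y| * |q| := by
          rw [← abs_mul, ← abs_mul]; exact abs_add_le _ _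
      _ ≤ |x| * H + |y| * H := by gcongr
      _ ≤ 139 * H ^ 4 := by nlinarith
  have n1 := bound P1 Q1 (by
    simp only [P1, Q1]; rw [abs_le] at a1 a2 a3 a4
    have s1 : ∀ z c : ℤ, -c ≤ z → z ≤ c → |z| ≤ c := fun z c h h' => abs_le.mpr ⟨h, h'⟩
    linarith [s1 (48 * m ^ 2 * d - 32 * m * d ^ 2 - 16 * d ^ 3) (96 * H ^ 3)
        (by linarith) (by linarith),
      s1 (-12 * m ^ 3 - 4 * m ^ 2 * d + 27 * d ^ 3) (43 * H ^ 3) (by linarith) (by linarith)])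
  have n2 := bound P2 Q2 (by
    simp only [P2, Q2]; rw [abs_le] at a1 a2 a3 a4
    have s1 : ∀ z c : ℤ, -c ≤ z → z ≤ c → |z| ≤ c := fun z c h h' => abs_le.mpr ⟨h, h'⟩
    linarith [s1 (11 * m ^ 3 - 20 * m ^ 2 * d + 4 * m * d ^ 2 + 6 * d ^ 3) (41 * H ^ 3)
        (by linarith) (by linarith),
      s1 (5 * m ^ 3 + 4 * m ^ 2 * d + 8 * m * d ^ 2 - 6 * d ^ 3) (23 * H ^ 3)
        (by linarith) (by linarith)])
  rw [← e1] at n1
  rw [← e2] at n2
  simp only [abs_mul, abs_pow] at n1 n2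
  have h7 : H ^ 7 ≤ 139 * H ^ 4 := by
    rcases heq with h | h
    · rw [h] at n2; norm_num at n2; linarith
    · rw [abs_of_pos hd, h] at n1; norm_num at n1; linarith
  have h3 : H ^ 3 ≤ 139 := le_of_mul_le_mul_right (by linarith [show H ^ 3 * H ^ 4 = H ^ 7 by ring])
    (pow_pos hH 4)
  by_contra hc
  push Not at hc
  nlinarith [pow_le_pow_left₀ (by norm_num : (0 : ℤ) ≤ 6) (by linarith : 6 ≤ H) 3]

/-- The naive height. -/
def naiveHeight (x : ℚ) : ℕ := max x.num.natAbs x.den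

/-- The rational points of `y² = 4x³ - 4x² + 1` have `x ∈ {0, 1}` (descent on the height). -/
lemma mem_zero_one_of_isSquare : ∀ n : ℕ, ∀ x : ℚ, naiveHeight x = n → IsSquare (cubicRHS x) →
    x = 0 ∨ x = 1 := by
  intro n
  induction n using Nat.strong_induction_on with
  | _ n ih =>
    intro x hxn hsq
    obtain ⟨x', hsq', heq⟩ := exists_half hsq
    suffices hx' : x' = 0 ∨ x' = 1 by
      rcases hx' with rfl | rfl
      · right; norm_num [cubicRHS] at heq; linarith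
      · left; norm_num [cubicRHS] at heq; linarith
    by_cases hlt : naiveHeight x' < n
    · exact ih _ hlt x' rfl hsq'
    push Not at hlt
    set m := x'.num
    set d : ℤ := (x'.den : ℤ) with hd
    have hd0 : 0 < d := by rw [hd]; exact_mod_cast x'.den_pos
    have hm : (m : ℚ) = x' * (d : ℚ) := by simp [m, hd]
    have hp : (x.num : ℚ) = x * ((x.den : ℤ) : ℚ) := by simp
    have h : x.num * (d * (4 * m ^ 3 - 4 * m ^ 2 * d + d ^ 3)) =
        (x.den : ℤ) * (m ^ 4 - 2 * m * d ^ 3 + d ^ 4) := by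
      have : ((x.num * (d * (4 * m ^ 3 - 4 * m ^ 2 * d + d ^ 3)) : ℤ) : ℚ) =
          (((x.den : ℤ) * (m ^ 4 - 2 * m * d ^ 3 + d ^ 4) : ℤ) : ℚ) := by
        simp only [Int.cast_mul, Int.cast_sub, Int.cast_add, Int.cast_pow, Int.cast_ofNat, hm, hp]
        simp only [cubicRHS] at heq
        linear_combination (d : ℚ) ^ 4 * ((x.den : ℤ) : ℚ) * heq
      exact_mod_cast this
    have hHx : |x.num| ≤ (naiveHeight x' : ℤ) ∧ |((x.den : ℤ))| ≤ (naiveHeight x' : ℤ) := by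
      have h1 : x.num.natAbs ≤ naiveHeight x' := le_trans (le_max_left _ _)
        (hxn ▸ hlt : naiveHeight x ≤ naiveHeight x')
      have h2 : x.den ≤ naiveHeight x' := le_trans (le_max_right _ _)
        (hxn ▸ hlt : naiveHeight x ≤ naiveHeight x')
      rw [Int.abs_eq_natAbs, Nat.abs_cast]
      exact ⟨by exact_mod_cast h1, by exact_mod_cast h2⟩
    have hmH : |m| ≤ (naiveHeight x' : ℤ) := by
      rw [Int.abs_eq_natAbs]; exact_mod_cast le_max_left _ _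
    have hdH : d ≤ (naiveHeight x' : ℤ) := by rw [hd]; exact_mod_cast le_max_right _ _
    have hcase : |m| = (naiveHeight x' : ℤ) ∨ d = (naiveHeight x' : ℤ) := by
      rcases max_choice x'.num.natAbs x'.den with h | h
      · left; rw [Int.abs_eq_natAbs]; simp only [naiveHeight, h, m]
      · right; simp only [naiveHeight, h, hd]
    have hsmall := height_bound hd0 (by simp) (Rat.isCoprime_num_den x') (Rat.isCoprime_num_den x)
      h hmH hdH hcase hHx.1 hHx.2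
    obtain ⟨y, hy⟩ := hsq'
    have hS : IsSquare (d * (4 * m ^ 3 - 4 * m ^ 2 * d + d ^ 3)) := by
      rw [← Rat.isSquare_intCast_iff]
      refine ⟨y * (d : ℚ) ^ 2, ?_⟩
      simp only [Int.cast_mul, Int.cast_sub, Int.cast_add, Int.cast_pow, Int.cast_ofNat, hm]
      simp only [cubicRHS] at hy
      linear_combination (d : ℚ) ^ 4 * hy
    have hm5 : |m| ≤ 5 := hmH.trans hsmall
    rw [abs_le] at hm5
    rcases eq_zero_or_eq_of_isSquare_small m (Finset.mem_Icc.mpr hm5) d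
      (Finset.mem_Icc.mpr ⟨hd0, hdH.trans hsmall⟩) hS with h0 | h1
    · left; exact Rat.num_eq_zero.mp h0
    · right
      have : (d : ℚ) = x' * (d : ℚ) := by rw [← hm, h1]
      exact (mul_eq_right₀ (by exact_mod_cast hd0.ne' : (d : ℚ) ≠ 0)).mp this.symm

/-- The rational points of `X₁(11) : y² + y = x³ - x²` are the five cuspidal ones. -/
theorem x1_eleven_rational {x y : ℚ} (h : y ^ 2 + y = x ^ 3 - x ^ 2) :
    (x = 0 ∨ x = 1) ∧ (y = 0 ∨ y = -1) := by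
  have hx : x = 0 ∨ x = 1 :=
    mem_zero_one_of_isSquare _ x rfl ⟨2 * y + 1, by simp only [cubicRHS]; linear_combination -4 * h⟩
  refine ⟨hx, ?_⟩
  have : y * (y + 1) = 0 := by rcases hx with rfl | rfl <;> linear_combination h
  rcases mul_eq_zero.mp this with h | h
  · exact Or.inl h
  · exact Or.inr (eq_neg_of_add_eq_zero_left h)

end Fermat.Agent.ExponentEleven
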