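import Fermat.Prelude.Def_FLTPrelim_GaloisRep
import Fermat.Agent.ExponentEleven.Cusp
import Fermat.Agent.ExponentEleven.Rank0
import Fermat.Agent.Gal.Basic

/-!
# Points on `X₁(11)` of Tate parameters

Points on `X₁(11)` attached to Tate parameters, Galois equivariance and the translation `τ`.
-/

noncomputable section

namespace Fermat.Agent.ExponentEleven

open WeierstrassCurve WeierstrassCurve.Affine
open scoped WeierstrassCurve.Affine

local notation "Qb" => AlgebraicClosure ℚ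
local notation "GQ" => AlgebraicClosure ℚ ≃ₐ[ℚ] AlgebraicClosure ℚ

/-- `X₁(11)` over `ℚ`. -/
abbrev X11 : WeierstrassCurve ℚ := ⟨0, -1, 1, 0, 0⟩

/-- Its group of `ℚ̄`-points. -/
abbrev X11pt : Type := ((X11⁄Qb).toAffine).Point

lemma X11_equation_iff {u v : Qb} :
    (X11⁄Qb).toAffine.Equation u v ↔ v ^ 2 + v = u ^ 3 - u ^ 2 := by
  rw [Affine.equation_iff]
  simp [X11, sub_eq_add_neg]

lemma X11_Δ_ne : (X11⁄Qb).Δ ≠ 0 := by
  show (X11.map (algebraMap ℚ Qb)).Δ ≠ 0
  rw [WeierstrassCurve.map_Δ]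
  simp only [ne_eq, map_eq_zero]
  norm_num [WeierstrassCurve.Δ, WeierstrassCurve.b₂, WeierstrassCurve.b₄, WeierstrassCurve.b₆,
    WeierstrassCurve.b₈, X11]

lemma X11_nonsingular {u v : Qb} (h : v ^ 2 + v = u ^ 3 - u ^ 2) :
    (X11⁄Qb).toAffine.Nonsingular u v :=
  (Affine.equation_iff_nonsingular_of_Δ_ne_zero X11_Δ_ne).mp (X11_equation_iff.mpr h)

/-- The point with given coordinates. -/
def mkPt (u v : Qb) (h : v ^ 2 + v = u ^ 3 - u ^ 2) : X11pt := .some u v (X11_nonsingular h)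

/-- The generator `(1, 0)` of the rational torsion. -/
def tau : X11pt := mkPt 1 0 (by ring)

lemma mkPt_congr {u v u' v' : Qb} {h : v ^ 2 + v = u ^ 3 - u ^ 2}
    {h' : v' ^ 2 + v' = u' ^ 3 - u' ^ 2} (hu : u = u') (hv : v = v') :
    mkPt u v h = mkPt u' v' h' := by
  subst hu hv; rfl

lemma smul_mkPt (σ : GQ) {u v : Qb} (h : v ^ 2 + v = u ^ 3 - u ^ 2) :
    σ • mkPt u v h = mkPt (σ u) (σ v)
      (by have := congrArg σ h; simpa [map_add, map_sub, map_pow] using this) := by
  simp only [mkPt, Affine.Point.algEquiv_smul_def, Affine.Point.map_some]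
  rfl

/-- Translation by `τ` in coordinates. -/
lemma mkPt_add_tau {u v : Qb} (h : v ^ 2 + v = u ^ 3 - u ^ 2) (hu : u ≠ 1) :
    ∃ h', mkPt u v h + tau = mkPt (transU u v) (transV u v) h' := by
  have hd : u - 1 ≠ 0 := sub_ne_zero.mpr hu
  have hadd := Affine.Point.add_of_X_ne (h₁ := X11_nonsingular h)
    (h₂ := X11_nonsingular (show (0 : Qb) ^ 2 + 0 = 1 ^ 3 - 1 ^ 2 by ring)) hu
  have e : mkPt u v h + tau = _ := hadd
  have eX : (X11⁄Qb).toAffine.addX u 1 ((X11⁄Qb).toAffine.slope u 1 v 0) = transU u v := by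
    rw [Affine.slope_of_X_ne hu]
    simp [Affine.addX, X11, transU]
    field_simp
    ring
  have eY : (X11⁄Qb).toAffine.addY u 1 v ((X11⁄Qb).toAffine.slope u 1 v 0) = transV u v := by
    simp only [Affine.addY, Affine.negAddY, Affine.negY, eX]
    rw [Affine.slope_of_X_ne hu]
    simp [X11, transV]
    field_simp
    ring
  have h' : transV u v ^ 2 + transV u v = transU u v ^ 3 - transU u v ^ 2 := by
    rw [← eX, ← eY, ← X11_equation_iff]
    exact (Affine.nonsingular_add (X11_nonsingular h)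
      (X11_nonsingular (show (0 : Qb) ^ 2 + 0 = 1 ^ 3 - 1 ^ 2 by ring))
      fun hxy => hu hxy.1).1
  refine ⟨h', e.trans ?_⟩
  simp only [mkPt, eX, eY]

/-- The point of `X₁(11)` attached to good Tate parameters. -/
def param {b c : Qb} (g : GoodParams b c) : X11pt :=
  mkPt (paramU b c) (paramV b c) (curve_of_relEleven g.hc g.hbc g.hs g.hrel)

lemma param_congr {b c b' c' : Qb} (g : GoodParams b c) (g' : GoodParams b' c')
    (hb : b = b') (hc : c = c') :
    param g = param g' := by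
  subst hb hc; rfl

/-- The Tate parameters are determined by the attached point of `X₁(11)`. -/
lemma param_inj {b c b' c' : Qb} (g : GoodParams b c) (g' : GoodParams b' c')
    (h : param g = param g') :
    b = b' ∧ c = c' := by
  simp only [param, mkPt, Affine.Point.some.injEq] at h
  obtain ⟨eb, ec⟩ := bc_of_uv g.hc g.hbc g.hs
  obtain ⟨eb', ec'⟩ := bc_of_uv g'.hc g'.hbc g'.hs
  rw [h.1, h.2] at eb ec
  exact ⟨eb.trans eb'.symm, ec.trans ec'.symm⟩

lemma GoodParams.map {b c : Qb} (g : GoodParams b c) (σ : GQ) : GoodParams (σ b) (σ c) := by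
  refine ⟨by simpa using g.hb, by simpa using g.hc, σ.injective.ne g.hbc, ?_, ?_⟩
  · rw [← map_pow, ← map_sub, ← map_add, ne_eq, map_eq_zero_iff σ σ.injective]; exact g.hs
  · have := congrArg σ g.hrel
    simpa [relEleven, map_ofNat] using this

lemma smul_param (σ : GQ) {b c : Qb} (g : GoodParams b c) : σ • param g = param (g.map σ) := by
  rw [param, smul_mkPt]
  exact mkPt_congr (by simp [paramU]) (by simp [paramV])

/-- Doubling of the level structure is translation by `τ`. -/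
lemma param_dbl {b c : Qb} (g : GoodParams b c)
    (g' : GoodParams (bDbl (paramU b c) (paramV b c)) (cDbl (paramU b c) (paramV b c))) :
    param g' = param g + tau := by
  have hcurve := curve_of_relEleven g.hc g.hbc g.hs g.hrel
  obtain ⟨hv, hv'⟩ := paramV_ne g.hb g.hc g.hbc
  obtain ⟨-, ec⟩ := bc_of_uv g.hc g.hbc g.hs
  have hw : paramU b c + paramV b c ≠ 0 := by
    intro h; rw [h, zero_mul, zero_div] at ec; exact g.hc ec
  obtain ⟨hu1, e1, e2⟩ := uv_dbl hcurve hv hv' hw g'.hbc g'.hc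
  obtain ⟨h', e⟩ := mkPt_add_tau hcurve hu1
  rw [show param g = mkPt (paramU b c) (paramV b c) hcurve from rfl, e]
  exact mkPt_congr e1 e2

/-- The points with `u ∈ {0, 1}` and `v ∈ {0, -1}` are multiples of `τ`. -/
lemma exists_eq_nsmul_tau (u v : Qb) (hu : u = 0 ∨ u = 1) (hv : v = 0 ∨ v = -1) :
    ∃ h, ∃ k : ℕ, mkPt u v h = k • tau := by
  have h : v ^ 2 + v = u ^ 3 - u ^ 2 := by
    rcases hu with rfl | rfl <;> rcases hv with rfl | rfl <;> ring
  refine ⟨h, ?_⟩
  have htau : (X11⁄Qb).toAffine.negY 1 0 = -1 := by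
    simp [Affine.negY, X11]
  have sl : (X11⁄Qb).toAffine.slope 1 1 0 0 = 1 := by
    rw [Affine.slope_of_Y_ne rfl (by rw [htau]; simp)]
    simp [Affine.negY, X11]
    norm_num
  have h0 : (0 : Qb) ^ 2 + 0 = 0 ^ 3 - 0 ^ 2 := by ring
  have e2 : tau + tau = mkPt 0 0 h0 := by
    rw [tau, mkPt, Affine.Point.add_self_of_Y_ne (by rw [htau]; simp), mkPt]
    simp only [Affine.Point.some.injEq, sl, Affine.addX, Affine.addY, Affine.negAddY, Affine.negY]
    simp [X11]
  obtain ⟨h3, e3⟩ := mkPt_add_tau h0 (by simp : (0 : Qb) ≠ 1)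
  have n1 : -tau = mkPt 1 (-1) (by ring) := by
    rw [tau, mkPt, Affine.Point.neg_some, mkPt]
    simp
  rcases hu with rfl | rfl <;> rcases hv with rfl | rfl
  · exact ⟨2, by rw [two_nsmul, e2]⟩
  · refine ⟨3, ?_⟩
    rw [succ_nsmul, two_nsmul, e2, e3]
    exact mkPt_congr (by norm_num [transU]) (by norm_num [transU, transV])
  · exact ⟨1, (one_nsmul _).symm⟩
  · refine ⟨4, ?_⟩
    rw [succ_nsmul, succ_nsmul, two_nsmul, e2, e3,
      mkPt_congr (h' := (by ring : (-1 : Qb) ^ 2 + -1 = 0 ^ 3 - 0 ^ 2))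
        (show transU 0 0 = (0 : Qb) by norm_num [transU])
          (show transV 0 0 = (-1 : Qb) by norm_num [transU, transV])]
    obtain ⟨h4, e4⟩ := mkPt_add_tau (by ring : (-1 : Qb) ^ 2 + -1 = 0 ^ 3 - 0 ^ 2)
      (by simp : (0 : Qb) ≠ 1)
    rw [e4]
    exact mkPt_congr (by norm_num [transU]) (by norm_num [transU, transV])

/-- A Galois-invariant point is a multiple of `τ`. -/
lemma eq_nsmul_tau_of_fixed (D : X11pt) (h : ∀ σ : GQ, σ • D = D) : ∃ k : ℕ, D = k • tau := by
  rcases D with _ | ⟨u, v, huv⟩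
  · exact ⟨0, by rw [zero_nsmul]; rfl⟩
  have hc : v ^ 2 + v = u ^ 3 - u ^ 2 := X11_equation_iff.mp huv.1
  have hfix : ∀ σ : GQ, σ u = u ∧ σ v = v := fun σ => by
    have := h σ
    rw [Affine.Point.algEquiv_smul_def, Affine.Point.map_some, Affine.Point.some.injEq] at this
    exact this
  obtain ⟨r, rfl⟩ := Gal.exists_rat_of_fixed fun σ => (hfix σ).1
  obtain ⟨s, rfl⟩ := Gal.exists_rat_of_fixed fun σ => (hfix σ).2
  obtain ⟨hr, hs⟩ := x1_eleven_rational (x := r) (y := s) (by exact_mod_cast hc)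
  obtain ⟨h', k, hk⟩ := exists_eq_nsmul_tau (r : Qb) (s : Qb)
    (by rcases hr with rfl | rfl <;> simp) (by rcases hs with rfl | rfl <;> simp)
  exact ⟨k, hk⟩

end Fermat.Agent.ExponentEleven
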